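import Mathlib
import Fermat.Prelude.Def_ModularCurve_LaurentCoeff

/-!
# Normalised `p`-th roots of Laurent series (R2 block B1, leaf (E): cover field)

`Normalized x` means that the leading coefficient of the Laurent series `x` is `1`.
If `(p : K) ≠ 0`, a normalised Laurent series whose order is divisible by `p` has a *unique*
normalised `p`-th root `nrt p x`.  Uniqueness makes the root compatible with every
coefficientwise field homomorphism (`ModularCurve.coeffMap`) and multiplicative.
-/

set_option autoImplicit false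

noncomputable section

namespace Fermat.Agent.S40x.R2.Cover

open PowerSeries HahnSeries ModularCurve

variable {K : Type*} [Field K]

/-! ### Power series -/

/-- A power series with constant coefficient `1` has a `p`-th root with constant coefficient `1`
as soon as `p` is invertible in `K`. -/
theorem exists_root_of_constantCoeff_eq_one (p : ℕ) (hp0 : p ≠ 0) (hp : (p : K) ≠ 0)
    (u : PowerSeries K) (hu : constantCoeff u = 1) :
    ∃ r : PowerSeries K, constantCoeff r = 1 ∧ r ^ p = u := by
  have : HenselianRing (PowerSeries K) (Ideal.span {(PowerSeries.X : PowerSeries K)}) :=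
    IsAdicComplete.henselianRing _ _
  let f : Polynomial (PowerSeries K) := Polynomial.X ^ p - Polynomial.C u
  have hf : f.Monic := Polynomial.monic_X_pow_sub_C u hp0
  have h0 : f.eval 1 ∈ Ideal.span {(PowerSeries.X : PowerSeries K)} := by
    simp only [f, Polynomial.eval_sub, Polynomial.eval_pow, Polynomial.eval_X, Polynomial.eval_C,
      one_pow]
    rw [Ideal.mem_span_singleton, PowerSeries.X_dvd_iff]
    simp [hu]
  have h1 : IsUnit (Ideal.Quotient.mk (Ideal.span {(PowerSeries.X : PowerSeries K)})
      (f.derivative.eval 1)) := by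
    have hd : f.derivative.eval 1 = (p : PowerSeries K) := by
      simp [f, Polynomial.derivative_X_pow]
    rw [hd]
    have hunit : IsUnit ((p : PowerSeries K)) := by
      rw [PowerSeries.isUnit_iff_constantCoeff]
      simpa using isUnit_iff_ne_zero.mpr hp
    exact hunit.map _
  obtain ⟨r, hr, hr1⟩ := HenselianRing.is_henselian f hf 1 h0 h1
  refine ⟨r, ?_, ?_⟩
  · have : (r - 1) ∈ Ideal.span {(PowerSeries.X : PowerSeries K)} := hr1
    rw [Ideal.mem_span_singleton, PowerSeries.X_dvd_iff] at this
    have h2 : constantCoeff r - 1 = 0 := by simpa using this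
    exact sub_eq_zero.mp h2
  · have : f.IsRoot r := hr
    simp only [f, Polynomial.IsRoot.def, Polynomial.eval_sub, Polynomial.eval_pow,
      Polynomial.eval_X, Polynomial.eval_C] at this
    exact sub_eq_zero.mp this

/-- Uniqueness of the root with constant coefficient one. -/
theorem root_unique (p : ℕ) (hp : (p : K) ≠ 0) (r s : PowerSeries K)
    (hr : constantCoeff r = 1) (hs : constantCoeff s = 1) (h : r ^ p = s ^ p) : r = s := by
  have hcomm : Commute r s := Commute.all r s
  have key := hcomm.mul_geom_sum₂ p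
  rw [h, sub_self] at key
  have hunit : IsUnit (∑ i ∈ Finset.range p, r ^ i * s ^ (p - 1 - i)) := by
    rw [PowerSeries.isUnit_iff_constantCoeff, map_sum]
    have : ∀ i ∈ Finset.range p, constantCoeff (r ^ i * s ^ (p - 1 - i)) = (1 : K) := by
      intro i _
      simp [hr, hs]
    rw [Finset.sum_congr rfl this]
    simpa using isUnit_iff_ne_zero.mpr hp
  have := (hunit.mul_left_eq_zero).mp key
  exact sub_eq_zero.mp this

/-! ### Normalised Laurent series -/

/-- A Laurent series is *normalised* if its leading coefficient is `1`. -/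
def Normalized (x : LaurentSeries K) : Prop := x.leadingCoeff = 1

theorem Normalized.leadingCoeff_eq {x : LaurentSeries K} (hx : Normalized x) :
    x.leadingCoeff = 1 := hx

theorem Normalized.ne_zero {x : LaurentSeries K} (hx : Normalized x) : x ≠ 0 := by
  rintro rfl
  simp [Normalized] at hx

theorem normalized_one : Normalized (1 : LaurentSeries K) := HahnSeries.leadingCoeff_one

theorem Normalized.mul {x y : LaurentSeries K} (hx : Normalized x) (hy : Normalized y) :
    Normalized (x * y) := by
  unfold Normalized at *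
  rw [HahnSeries.leadingCoeff_mul, hx, hy, one_mul]

theorem Normalized.pow {x : LaurentSeries K} (hx : Normalized x) (n : ℕ) :
    Normalized (x ^ n) := by
  induction n with
  | zero => simpa using normalized_one
  | succ n ih => rw [pow_succ]; exact ih.mul hx

theorem Normalized.inv {x : LaurentSeries K} (hx : Normalized x) : Normalized x⁻¹ := by
  have h : (x * x⁻¹).leadingCoeff = 1 := by
    rw [mul_inv_cancel₀ hx.ne_zero]; exact HahnSeries.leadingCoeff_one
  unfold Normalized at *
  rwa [HahnSeries.leadingCoeff_mul, hx, one_mul] at h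

theorem Normalized.div {x y : LaurentSeries K} (hx : Normalized x) (hy : Normalized y) :
    Normalized (x / y) := by
  rw [div_eq_mul_inv]; exact hx.mul hy.inv

theorem Normalized.zpow {x : LaurentSeries K} (hx : Normalized x) (n : ℤ) :
    Normalized (x ^ n) := by
  cases n with
  | ofNat n => simpa using hx.pow n
  | negSucc n => rw [zpow_negSucc]; exact (hx.pow _).inv

theorem normalized_single_one (n : ℤ) : Normalized (single n (1 : K) : LaurentSeries K) :=
  HahnSeries.leadingCoeff_of_single

/-- The leading coefficient as a monoid-with-zero homomorphism. -/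
def lcHom₀ : LaurentSeries K →*₀ K where
  toFun x := x.leadingCoeff
  map_zero' := HahnSeries.leadingCoeff_zero
  map_one' := HahnSeries.leadingCoeff_one
  map_mul' x y := HahnSeries.leadingCoeff_mul x y

@[simp] theorem lcHom₀_apply (x : LaurentSeries K) : lcHom₀ x = x.leadingCoeff := rfl

/-- The leading coefficient homomorphism on units. -/
def lcHom : (LaurentSeries K)ˣ →* Kˣ := Units.map (lcHom₀ (K := K)).toMonoidHom

@[simp] theorem coe_lcHom (x : (LaurentSeries K)ˣ) :
    ((lcHom x : Kˣ) : K) = (x : LaurentSeries K).leadingCoeff := rfl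

theorem leadingCoeff_inv (x : LaurentSeries K) : x⁻¹.leadingCoeff = x.leadingCoeff⁻¹ :=
  map_inv₀ (lcHom₀ (K := K)) x

theorem leadingCoeff_pow (x : LaurentSeries K) (n : ℕ) :
    (x ^ n).leadingCoeff = x.leadingCoeff ^ n :=
  map_pow (lcHom₀ (K := K)) x n

theorem leadingCoeff_zpow (x : LaurentSeries K) (n : ℤ) :
    (x ^ n).leadingCoeff = x.leadingCoeff ^ n :=
  map_zpow₀ (lcHom₀ (K := K)) x n

theorem leadingCoeff_C (c : K) : (HahnSeries.C c : LaurentSeries K).leadingCoeff = c :=
  HahnSeries.leadingCoeff_of_single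

/-- Every nonzero Laurent series is a constant times a normalised one. -/
theorem normalized_C_inv_mul {x : LaurentSeries K} (hx : x ≠ 0) :
    Normalized (HahnSeries.C (x.leadingCoeff)⁻¹ * x) := by
  unfold Normalized
  rw [HahnSeries.leadingCoeff_mul, leadingCoeff_C,
    inv_mul_cancel₀ (HahnSeries.leadingCoeff_ne_zero.mpr hx)]

theorem order_pow' (x : LaurentSeries K) (n : ℕ) : (x ^ n).order = n • x.order := by
  by_cases hx : x = 0
  · subst hx
    rcases Nat.eq_zero_or_pos n with rfl | hn
    · simp
    · rw [zero_pow hn.ne']; simp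
  induction n with
  | zero => simp
  | succ n ih =>
    rw [pow_succ, HahnSeries.order_mul (pow_ne_zero n hx) hx, ih, succ_nsmul]

theorem normalized_iff_constantCoeff {x : LaurentSeries K} :
    Normalized x ↔ constantCoeff x.powerSeriesPart = 1 := by
  unfold Normalized
  rw [HahnSeries.leadingCoeff_eq, ← PowerSeries.coeff_zero_eq_constantCoeff_apply,
    LaurentSeries.powerSeriesPart_coeff]
  simp

theorem ofPowerSeries_ne_zero {u : PowerSeries K} (hu : u ≠ 0) :
    (ofPowerSeries ℤ K u) ≠ 0 := by
  intro h
  exact hu ((ofPowerSeries_injective (Γ := ℤ) (R := K)) (by simpa using h))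

theorem leadingCoeff_ofPowerSeries_of_constantCoeff_ne_zero {u : PowerSeries K}
    (hu : constantCoeff u ≠ 0) :
    (ofPowerSeries ℤ K u).leadingCoeff = constantCoeff u ∧ (ofPowerSeries ℤ K u).order = 0 := by
  have hu0 : u ≠ 0 := by
    rintro rfl
    simp at hu
  have hne := ofPowerSeries_ne_zero hu0
  have hc0 : (ofPowerSeries ℤ K u).coeff 0 = constantCoeff u := by
    have := LaurentSeries.coeff_coe_powerSeries u 0
    simpa using this
  have hord : (ofPowerSeries ℤ K u).order = 0 := by
    apply le_antisymm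
    · exact HahnSeries.order_le_of_coeff_ne_zero (by rw [hc0]; exact hu)
    · by_contra hlt
      rw [not_le] at hlt
      have hmem : (ofPowerSeries ℤ K u).coeff (ofPowerSeries ℤ K u).order ≠ 0 := by
        rw [Ne, HahnSeries.coeff_order_eq_zero]; exact hne
      apply hmem
      rw [PowerSeries.coeff_coe]
      simp [hlt]
  exact ⟨by rw [HahnSeries.leadingCoeff_eq, hord, hc0], hord⟩

/-! ### Existence and uniqueness of the normalised root -/

theorem exists_normalized_root (p : ℕ) (hp0 : p ≠ 0) (hp : (p : K) ≠ 0) (x : LaurentSeries K)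
    (hx : Normalized x) (hord : (p : ℤ) ∣ x.order) :
    ∃ z : LaurentSeries K, Normalized z ∧ z ^ p = x := by
  obtain ⟨m, hm⟩ := hord
  obtain ⟨r, hr1, hrp⟩ := exists_root_of_constantCoeff_eq_one p hp0 hp x.powerSeriesPart
    (normalized_iff_constantCoeff.mp hx)
  refine ⟨single m (1 : K) * ofPowerSeries ℤ K r, ?_, ?_⟩
  · refine (normalized_single_one m).mul ?_
    have := leadingCoeff_ofPowerSeries_of_constantCoeff_ne_zero (u := r) (by rw [hr1]; exact one_ne_zero)
    unfold Normalized
    rw [this.1, hr1]
  · rw [mul_pow, HahnSeries.single_pow, one_pow, ← map_pow, hrp, nsmul_eq_mul, ← hm]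
    exact LaurentSeries.single_order_mul_powerSeriesPart x

theorem eq_one_of_normalized_of_pow_eq_one (p : ℕ) (hp0 : p ≠ 0) (hp : (p : K) ≠ 0)
    {w : LaurentSeries K} (hw : Normalized w) (h : w ^ p = 1) : w = 1 := by
  have hord : w.order = 0 := by
    have h1 : (w ^ p).order = 0 := by rw [h]; exact HahnSeries.order_one
    rw [order_pow', nsmul_eq_mul] at h1
    rcases mul_eq_zero.mp h1 with h2 | h2
    · exact absurd (by exact_mod_cast h2) hp0
    · exact h2
  have hw' : w = ofPowerSeries ℤ K w.powerSeriesPart := by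
    conv_lhs => rw [← LaurentSeries.single_order_mul_powerSeriesPart w, hord]
    rw [show (single (0 : ℤ) (1 : K) : LaurentSeries K) = 1 from rfl, one_mul]
  have h2 : w.powerSeriesPart ^ p = 1 ^ p := by
    apply ofPowerSeries_injective (Γ := ℤ) (R := K)
    rw [map_pow, ← hw', h, one_pow, map_one]
  have h3 := root_unique p hp _ _ (normalized_iff_constantCoeff.mp hw) (by simp) h2
  rw [hw', h3, map_one]

theorem normalized_root_unique (p : ℕ) (hp0 : p ≠ 0) (hp : (p : K) ≠ 0)
    {z z' : LaurentSeries K} (hz : Normalized z) (hz' : Normalized z') (h : z ^ p = z' ^ p) :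
    z = z' := by
  have h1 : (z / z') ^ p = 1 := by
    rw [div_pow, h, div_self (pow_ne_zero p hz'.ne_zero)]
  have h2 := eq_one_of_normalized_of_pow_eq_one p hp0 hp (hz.div hz') h1
  exact (div_eq_one_iff_eq hz'.ne_zero).mp h2

/-- Is `x` admissible for taking a normalised `p`-th root? -/
def RootAdmissible (p : ℕ) (x : LaurentSeries K) : Prop :=
  Normalized x ∧ (p : ℤ) ∣ x.order

open Classical in
/-- THE normalised `p`-th root of a normalised Laurent series of order divisible by `p`
(junk value `1` otherwise). -/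
def nrt (p : ℕ) (x : LaurentSeries K) : LaurentSeries K :=
  if h : ∃ z : LaurentSeries K, Normalized z ∧ z ^ p = x then h.choose else 1

theorem nrt_spec (p : ℕ) (hp0 : p ≠ 0) (hp : (p : K) ≠ 0) {x : LaurentSeries K}
    (hx : RootAdmissible p x) : Normalized (nrt p x) ∧ nrt p x ^ p = x := by
  have h := exists_normalized_root p hp0 hp x hx.1 hx.2
  unfold nrt
  rw [dif_pos h]
  exact h.choose_spec

theorem normalized_nrt (p : ℕ) (x : LaurentSeries K) : Normalized (nrt p x) := by
  unfold nrt
  split_ifs with h
  · exact h.choose_spec.1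
  · exact normalized_one

theorem nrt_pow (p : ℕ) (hp0 : p ≠ 0) (hp : (p : K) ≠ 0) {x : LaurentSeries K}
    (hx : RootAdmissible p x) : nrt p x ^ p = x :=
  (nrt_spec p hp0 hp hx).2

theorem nrt_unique (p : ℕ) (hp0 : p ≠ 0) (hp : (p : K) ≠ 0) {x z : LaurentSeries K}
    (hz : Normalized z) (h : z ^ p = x) : nrt p x = z := by
  have hex : ∃ z : LaurentSeries K, Normalized z ∧ z ^ p = x := ⟨z, hz, h⟩
  have h1 : Normalized (nrt p x) ∧ nrt p x ^ p = x := by
    unfold nrt
    rw [dif_pos hex]
    exact hex.choose_spec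
  exact normalized_root_unique p hp0 hp h1.1 hz (h1.2.trans h.symm)

theorem rootAdmissible_pow (p : ℕ) {z : LaurentSeries K} (hz : Normalized z) :
    RootAdmissible p (z ^ p) :=
  ⟨hz.pow p, by rw [order_pow', nsmul_eq_mul]; exact dvd_mul_right _ _⟩

theorem nrt_pow_self (p : ℕ) (hp0 : p ≠ 0) (hp : (p : K) ≠ 0) {z : LaurentSeries K}
    (hz : Normalized z) : nrt p (z ^ p) = z :=
  nrt_unique p hp0 hp hz rfl

theorem RootAdmissible.mul {p : ℕ} {x y : LaurentSeries K} (hx : RootAdmissible p x)
    (hy : RootAdmissible p y) : RootAdmissible p (x * y) :=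
  ⟨hx.1.mul hy.1, by
    rw [HahnSeries.order_mul hx.1.ne_zero hy.1.ne_zero]; exact dvd_add hx.2 hy.2⟩

theorem order_inv' (x : LaurentSeries K) : x⁻¹.order = -x.order := by
  by_cases hx : x = 0
  · subst hx; simp
  have h : (x * x⁻¹).order = 0 := by rw [mul_inv_cancel₀ hx]; exact HahnSeries.order_one
  rw [HahnSeries.order_mul hx (inv_ne_zero hx)] at h
  linarith

theorem RootAdmissible.inv {p : ℕ} {x : LaurentSeries K} (hx : RootAdmissible p x) :
    RootAdmissible p x⁻¹ :=
  ⟨hx.1.inv, by rw [order_inv']; exact (dvd_neg).mpr hx.2⟩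

theorem RootAdmissible.pow {p : ℕ} {x : LaurentSeries K} (hx : RootAdmissible p x) (n : ℕ) :
    RootAdmissible p (x ^ n) :=
  ⟨hx.1.pow n, by rw [order_pow', nsmul_eq_mul]; exact Dvd.dvd.mul_left hx.2 _⟩

theorem rootAdmissible_one (p : ℕ) : RootAdmissible p (1 : LaurentSeries K) :=
  ⟨normalized_one, by rw [HahnSeries.order_one]; exact dvd_zero _⟩

theorem nrt_one (p : ℕ) (hp0 : p ≠ 0) (hp : (p : K) ≠ 0) : nrt p (1 : LaurentSeries K) = 1 :=
  nrt_unique p hp0 hp normalized_one (one_pow p)

theorem nrt_mul (p : ℕ) (hp0 : p ≠ 0) (hp : (p : K) ≠ 0) {x y : LaurentSeries K}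
    (hx : RootAdmissible p x) (hy : RootAdmissible p y) :
    nrt p (x * y) = nrt p x * nrt p y :=
  nrt_unique p hp0 hp ((normalized_nrt p x).mul (normalized_nrt p y))
    (by rw [mul_pow, nrt_pow p hp0 hp hx, nrt_pow p hp0 hp hy])

theorem nrt_inv (p : ℕ) (hp0 : p ≠ 0) (hp : (p : K) ≠ 0) {x : LaurentSeries K}
    (hx : RootAdmissible p x) : nrt p x⁻¹ = (nrt p x)⁻¹ :=
  nrt_unique p hp0 hp (normalized_nrt p x).inv (by rw [inv_pow, nrt_pow p hp0 hp hx])

theorem nrt_pow_nat (p : ℕ) (hp0 : p ≠ 0) (hp : (p : K) ≠ 0) {x : LaurentSeries K}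
    (hx : RootAdmissible p x) (n : ℕ) : nrt p (x ^ n) = nrt p x ^ n :=
  nrt_unique p hp0 hp ((normalized_nrt p x).pow n)
    (by rw [← pow_mul, mul_comm, pow_mul, nrt_pow p hp0 hp hx])

/-! ### Compatibility with coefficientwise homomorphisms -/

section CoeffMap

variable {K' : Type*} [Field K']

theorem coeffMap_ne_zero (φ : K →+* K') {x : LaurentSeries K} (hx : x ≠ 0) :
    coeffMap φ x ≠ 0 := by
  intro h
  apply hx
  ext k
  have := congrArg (fun y => HahnSeries.coeff y k) h
  simp only [coeffMap_coeff, HahnSeries.coeff_zero] at this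
  simpa using (_root_.map_eq_zero φ).mp this

theorem order_coeffMap (φ : K →+* K') (x : LaurentSeries K) :
    (coeffMap φ x).order = x.order := by
  by_cases hx : x = 0
  · subst hx; simp
  apply le_antisymm
  · apply HahnSeries.order_le_of_coeff_ne_zero
    rw [coeffMap_coeff, Ne, _root_.map_eq_zero, HahnSeries.coeff_order_eq_zero]
    exact hx
  · apply HahnSeries.order_le_of_coeff_ne_zero
    have h := (HahnSeries.coeff_order_eq_zero (x := coeffMap φ x)).not.mpr (coeffMap_ne_zero φ hx)
    rw [coeffMap_coeff] at h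
    intro h0
    apply h
    rw [h0, map_zero]

theorem leadingCoeff_coeffMap (φ : K →+* K') (x : LaurentSeries K) :
    (coeffMap φ x).leadingCoeff = φ x.leadingCoeff := by
  rw [HahnSeries.leadingCoeff_eq, HahnSeries.leadingCoeff_eq, order_coeffMap, coeffMap_coeff]

theorem Normalized.coeffMap (φ : K →+* K') {x : LaurentSeries K} (hx : Normalized x) :
    Normalized (coeffMap φ x) := by
  unfold Normalized at *
  rw [leadingCoeff_coeffMap, hx, map_one]

theorem RootAdmissible.coeffMap {p : ℕ} (φ : K →+* K') {x : LaurentSeries K}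
    (hx : RootAdmissible p x) : RootAdmissible p (coeffMap φ x) :=
  ⟨hx.1.coeffMap φ, by rw [order_coeffMap]; exact hx.2⟩

/-- The normalised root commutes with coefficientwise field homomorphisms. -/
theorem coeffMap_nrt (p : ℕ) (hp0 : p ≠ 0) (hp : (p : K) ≠ 0) (hp' : (p : K') ≠ 0)
    (φ : K →+* K') {x : LaurentSeries K} (hx : RootAdmissible p x) :
    coeffMap φ (nrt p x) = nrt p (coeffMap φ x) :=
  (nrt_unique p hp0 hp' ((normalized_nrt p x).coeffMap φ)
    (by rw [← map_pow, nrt_pow p hp0 hp hx])).symm

end CoeffMap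

end Fermat.Agent.S40x.R2.Cover
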