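import Mathlib

/-!
# The fixed field of a finite-order automorphism (Mathlib-only layer of C3-ASM item [FP])

`E` a field, `s : RingAut E` of finite order, `C s = ⟨s⟩`, `F s = E^{⟨s⟩}`.  Artin: `E / F s` is
Galois, `sAlg s : E ≃ₐ[F s] E` generates the Galois group, `[E : F s] = orderOf s`.
-/

set_option autoImplicit false

noncomputable section

namespace Fermat.Agent.S40x.R2.Cover.CyclicFixed

variable {E : Type*} [Field E] (s : RingAut E)

/-- The cyclic group generated by `s`. -/
abbrev C : Subgroup (RingAut E) := Subgroup.zpowers s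

/-- The fixed field of `s`. -/
abbrev F : Subfield E := FixedPoints.subfield (C s) E

theorem zpow_apply_eq_self {x : E} (h : s x = x) (k : ℤ) : (s ^ k) x = x := by
  have h' : s⁻¹ x = x := by
    rw [RingAut.inv_apply]
    apply s.injective
    rw [RingEquiv.apply_symm_apply, h]
  induction k using Int.induction_on with
  | zero => rfl
  | succ n ih => rw [zpow_add_one, RingAut.mul_apply, h, ih]
  | pred n ih => rw [zpow_sub_one, RingAut.mul_apply, h', ih]

/-- `s` as an element of `C s`. -/
def gen : C s := ⟨s, Subgroup.mem_zpowers s⟩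

theorem gen_smul (x : E) : gen s • x = s x := rfl

theorem mem_F_iff {x : E} : x ∈ F s ↔ s x = x := by
  constructor
  · intro h
    exact h (gen s)
  · rintro h ⟨c, hc⟩
    obtain ⟨k, rfl⟩ := Subgroup.mem_zpowers_iff.mp hc
    exact zpow_apply_eq_self s h k

theorem finite_C (hs : IsOfFinOrder s) : Finite (C s) := finite_zpowers.mpr hs

/-- The `F s`-algebra automorphism of `E` induced by `s`. -/
def sAlg : E ≃ₐ[F s] E := MulSemiringAction.toAlgAut (C s) (F s) E (gen s)

@[simp] theorem sAlg_apply (x : E) : sAlg s x = s x := rfl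

variable [Finite (C s)]

theorem isGalois : IsGalois (F s) E := IsGalois.of_fixed_field E (C s)

theorem finiteDimensional : FiniteDimensional (F s) E := inferInstance

/-- Every element of `Gal(E / F s)` is a power of `sAlg s`. -/
theorem sAlg_generates (g : E ≃ₐ[F s] E) : g ∈ Subgroup.zpowers (sAlg s) := by
  obtain ⟨⟨c, hc⟩, rfl⟩ := FixedPoints.toAlgAut_surjective (C s) E g
  obtain ⟨k, rfl⟩ := Subgroup.mem_zpowers_iff.mp hc
  rw [Subgroup.mem_zpowers_iff]
  refine ⟨k, ?_⟩
  have : (⟨s ^ k, hc⟩ : C s) = (gen s) ^ k := by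
    apply Subtype.ext
    rw [Subgroup.coe_zpow]
    rfl
  rw [this, map_zpow]
  rfl

theorem finrank_eq_orderOf : Module.finrank (F s) E = orderOf s := by
  have := Fintype.ofFinite (C s)
  rw [FixedPoints.finrank_eq_card (C s) E, ← Nat.card_eq_fintype_card, Nat.card_zpowers]

end Fermat.Agent.S40x.R2.Cover.CyclicFixed
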