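import Fermat.Agent.S40x.R2.Cover.Span
import Fermat.Agent.S40x.R2.Cover.CyclicFixed

/-!
# `FL_0 / F_0` is cyclic Galois with group generated by `σ0` (C3-ASM item [FP])

In the setting of `Cover/Fixed.lean`: `E0 := FL_0` (the `G`-fixed subfield of the cover field, as a
field type), `F0 := E0^{⟨σ0⟩}` (a `Subfield E0`; its elements are exactly the images of `G`-fixed
elements of `F`).  Mathlib's Artin theorem gives `IsGalois F0 E0`, and every element of
`Gal(E0/F0)` is a power of `sigmaAlg : E0 ≃ₐ[F0] E0` (the `F0`-algebra automorphism induced by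
`σ0`).  This is the exact input shape of `Asm/Core.c3_core_pair` /
`Transitive.ord_sub_dvd_of_generator_gal`.
-/

set_option autoImplicit false

noncomputable section

namespace Fermat.Agent.S40x.R2.Cover

open HahnSeries ModularCurve IntermediateField AlgebraicCurve

variable {L : Type*} [Field L]

namespace CoverDatum

variable {F : IntermediateField L (LaurentSeries L)} {p : ℕ} (D : CoverDatum F p)
variable {G : Type*} [Group G] (ρ : G →* RingAut L) (hρ : ∀ g, D.Stable (ρ g))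

/-- `E0 = FL_0` as a field type. -/
def E0 : Type _ := ↥(D.fixedField ρ hρ)

instance : Field (D.E0 ρ hρ) := inferInstanceAs (Field ↥(D.fixedField ρ hρ))

/-- The inclusion `E0 → FL'`. -/
def E0.val : D.E0 ρ hρ →+* D.coverField := (D.fixedField ρ hρ).subtype

/-- `σ0` as a ring automorphism of `E0`. -/
def sigmaE : RingAut (D.E0 ρ hρ) := D.sigma0 ρ hρ

theorem val_sigmaE (x : D.E0 ρ hρ) : E0.val D ρ hρ (D.sigmaE ρ hρ x) = D.sigma (E0.val D ρ hρ x) :=
  rfl

theorem isOfFinOrder_sigmaE : IsOfFinOrder (D.sigmaE ρ hρ) :=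
  isOfFinOrder_iff_pow_eq_one.mpr ⟨p, D.prime.pos, D.sigma0_pow_p ρ hρ⟩

instance finite_C : Finite (CyclicFixed.C (D.sigmaE ρ hρ)) :=
  CyclicFixed.finite_C _ (D.isOfFinOrder_sigmaE ρ hρ)

/-- `F0 := E0^{⟨σ0⟩}` as a subfield of `E0`. -/
def F0 : Subfield (D.E0 ρ hρ) := CyclicFixed.F (D.sigmaE ρ hρ)

theorem mem_F0_iff {x : D.E0 ρ hρ} : x ∈ D.F0 ρ hρ ↔ D.sigmaE ρ hρ x = x :=
  CyclicFixed.mem_F_iff _

/-- The elements of `F0` are exactly the images of the `G`-fixed elements of `F`. -/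
theorem mem_F0_iff_fixedBase {x : D.E0 ρ hρ} :
    x ∈ D.F0 ρ hρ ↔ ∃ y ∈ fixedBase F ρ, algebraMap F D.coverField y = E0.val D ρ hρ x := by
  rw [mem_F0_iff]
  exact D.sigma0_eq_self_iff_fixedBase ρ hρ

instance isGalois_E0 : IsGalois (D.F0 ρ hρ) (D.E0 ρ hρ) :=
  CyclicFixed.isGalois (D.sigmaE ρ hρ)

instance finiteDimensional_E0 : FiniteDimensional (D.F0 ρ hρ) (D.E0 ρ hρ) :=
  CyclicFixed.finiteDimensional (D.sigmaE ρ hρ)

/-- The `F0`-algebra automorphism of `E0` induced by `σ0`. -/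
def sigmaAlg : D.E0 ρ hρ ≃ₐ[D.F0 ρ hρ] D.E0 ρ hρ := CyclicFixed.sAlg (D.sigmaE ρ hρ)

@[simp] theorem sigmaAlg_apply (x : D.E0 ρ hρ) : D.sigmaAlg ρ hρ x = D.sigmaE ρ hρ x := rfl

theorem val_sigmaAlg_apply (x : D.E0 ρ hρ) :
    E0.val D ρ hρ (D.sigmaAlg ρ hρ x) = D.sigma (E0.val D ρ hρ x) := rfl

/-- **Every element of `Gal(E0/F0)` is a power of `sigmaAlg`.** -/
theorem sigmaAlg_generates (g : D.E0 ρ hρ ≃ₐ[D.F0 ρ hρ] D.E0 ρ hρ) :
    g ∈ Subgroup.zpowers (D.sigmaAlg ρ hρ) :=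
  CyclicFixed.sAlg_generates (D.sigmaE ρ hρ) g

/-- With a `G1`-fixed `f0` the extension `E0/F0` has degree exactly `p`. -/
theorem finrank_E0
    (hfix : ∀ g ∈ D.G1 ρ, coeffMap ((ρ g : L ≃+* L) : L →+* L) (D.f0 : LaurentSeries L) = D.f0) :
    Module.finrank (D.F0 ρ hρ) (D.E0 ρ hρ) = p := by
  have h := CyclicFixed.finrank_eq_orderOf (D.sigmaE ρ hρ)
  rw [show orderOf (D.sigmaE ρ hρ) = p from D.orderOf_sigma0_eq ρ hρ hfix] at h
  exact h

/-- Constructor of elements of `E0` from `G`-fixed elements of the cover field. -/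
def E0.mk (x : D.coverField) (hx : x ∈ D.fixedField ρ hρ) : D.E0 ρ hρ := ⟨x, hx⟩

@[simp] theorem E0.val_mk (x : D.coverField) (hx : x ∈ D.fixedField ρ hρ) :
    E0.val D ρ hρ (E0.mk D ρ hρ x hx) = x := rfl

theorem E0.val_injective : Function.Injective (E0.val D ρ hρ) := Subtype.val_injective

/-- The relation `σ ft = a h^p ft` in the cover field, transported to `E0/F0`
(input `hσ` of `Asm/Core.c3_core_pair`). -/
theorem sigmaAlg_eq_of_sigma_eq {ft h : D.E0 ρ hρ} {a : D.F0 ρ hρ}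
    (hσ : D.sigma (E0.val D ρ hρ ft) =
      E0.val D ρ hρ (a : D.E0 ρ hρ) * E0.val D ρ hρ h ^ p * E0.val D ρ hρ ft) :
    D.sigmaAlg ρ hρ ft = algebraMap (D.F0 ρ hρ) (D.E0 ρ hρ) a * h ^ p * ft := by
  apply E0.val_injective D ρ hρ
  rw [val_sigmaAlg_apply, hσ, map_mul, map_mul, map_pow]
  rfl

/-- `G`-fixed constants give elements of `F0`. -/
theorem const_mem_F0 {c : L} (hc : ∀ g : G, ρ g c = c) :
    E0.mk D ρ hρ (algebraMap L D.coverField c) (D.algebraMap_L_mem_fixedField ρ hρ hc) ∈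
      D.F0 ρ hρ := by
  rw [mem_F0_iff]
  apply E0.val_injective D ρ hρ
  rw [val_sigmaE, E0.val_mk]
  have : algebraMap L D.coverField c = algebraMap F D.coverField (algebraMap L F c) := rfl
  rw [this, AlgEquiv.commutes]

end CoverDatum

end Fermat.Agent.S40x.R2.Cover
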