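import Fermat.Agent.S40x.R2.Cover.Field
import Fermat.Prelude.Def_AlgebraicCurve_BaseChangeGalois

/-!
# Coefficientwise Galois action on the Kummer cover field (R2 block B1, leaf (E))

A ring automorphism `φ` of the constant field `L` acts coefficientwise on `L((q))`.
If it stabilises `F` and sends `f0` to `f0 ^ a * g ^ p` (`g ∈ F`) then it stabilises the cover
field `F(z)`, `z = nrt p f0`; explicitly `φ z = g' * z ^ a` with `g' ∈ F` the normalisation of
`g`.  If moreover `φ ζ = ζ ^ a`, the induced automorphism commutes with the deck transformation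
`σ`.
-/

set_option autoImplicit false

noncomputable section

namespace Fermat.Agent.S40x.R2.Cover

open HahnSeries ModularCurve IntermediateField AlgebraicCurve

variable {L : Type*} [Field L]

/-- The coefficientwise ring automorphism of `L((q))` attached to a ring automorphism of `L`. -/
def coeffEquiv (φ : L ≃+* L) : LaurentSeries L ≃+* LaurentSeries L where
  toFun := coeffMap (φ : L →+* L)
  invFun := coeffMap (φ.symm : L →+* L)
  left_inv x := by
    rw [coeffMap_coeffMap,
      coeffMap_congr (g := RingHom.id L) (RingHom.ext fun a => φ.symm_apply_apply a) x, coeffMap_id]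
  right_inv x := by
    rw [coeffMap_coeffMap,
      coeffMap_congr (g := RingHom.id L) (RingHom.ext fun a => φ.apply_symm_apply a) x, coeffMap_id]
  map_mul' := map_mul _
  map_add' := map_add _

@[simp] theorem coeffEquiv_apply (φ : L ≃+* L) (x : LaurentSeries L) :
    coeffEquiv φ x = coeffMap (φ : L →+* L) x := rfl

@[simp] theorem coeffEquiv_symm_apply (φ : L ≃+* L) (x : LaurentSeries L) :
    (coeffEquiv φ).symm x = coeffMap (φ.symm : L →+* L) x := rfl

theorem coeffMap_C (φ : L →+* L) (c : L) :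
    coeffMap φ (HahnSeries.C c : LaurentSeries L) = HahnSeries.C (φ c) :=
  coeffMap_single φ 0 c

namespace CoverDatum

variable {F : IntermediateField L (LaurentSeries L)} {p : ℕ} (D : CoverDatum F p)

/-- `φ` is compatible with the cover datum: it stabilises `F`, multiplies the class of `f0`
modulo `p`-th powers by `a`, and raises `ζ` to the `a`-th power. -/
structure Stable (φ : L ≃+* L) : Prop where
  mapsF : ∀ x : LaurentSeries L, x ∈ F → coeffMap (φ : L →+* L) x ∈ F
  exists_exp : ∃ (a : ℕ) (g : F),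
    coeffMap (φ : L →+* L) (D.f0 : LaurentSeries L) =
      (D.f0 : LaurentSeries L) ^ a * (g : LaurentSeries L) ^ p ∧ φ D.ζ = D.ζ ^ a

theorem C_mem (c : L) : (HahnSeries.C c : LaurentSeries L) ∈ F := by
  rw [← LaurentSeries.algebraMap_apply]
  exact F.algebraMap_mem c

/-- **The Galois action on `z`.** -/
theorem exists_coeffMap_z {φ : L ≃+* L} (h : D.Stable φ) :
    ∃ (a : ℕ) (d : F), coeffMap (φ : L →+* L) D.z = (d : LaurentSeries L) * D.z ^ a ∧
      φ D.ζ = D.ζ ^ a := by
  obtain ⟨a, g, hg, hζ⟩ := h.exists_exp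
  have hp0 := D.prime.ne_zero
  have hf0n : Normalized (D.f0 : LaurentSeries L) := D.adm.1
  have hgp : ((g : LaurentSeries L) ^ p).leadingCoeff = 1 := by
    have h1 := (hf0n.coeffMap (φ : L →+* L)).leadingCoeff_eq
    rw [hg, HahnSeries.leadingCoeff_mul, (hf0n.pow a).leadingCoeff_eq, one_mul] at h1
    exact h1
  have hg0 : (g : LaurentSeries L) ≠ 0 := by
    intro h0
    rw [h0, zero_pow hp0] at hgp
    simp at hgp
  set c : L := (g : LaurentSeries L).leadingCoeff with hc
  have hcp : c ^ p = 1 := by rw [← leadingCoeff_pow]; exact hgp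
  have hc0 : c ≠ 0 := HahnSeries.leadingCoeff_ne_zero.mpr hg0
  set g' : LaurentSeries L := HahnSeries.C c⁻¹ * (g : LaurentSeries L) with hg'
  have hg'n : Normalized g' := normalized_C_inv_mul hg0
  have hg'p : g' ^ p = (g : LaurentSeries L) ^ p := by
    rw [hg', mul_pow, ← map_pow, inv_pow, hcp, inv_one, map_one, one_mul]
  have hg'F : g' ∈ F := F.mul_mem (C_mem c⁻¹) g.2
  refine ⟨a, ⟨g', hg'F⟩, ?_, hζ⟩
  apply normalized_root_unique p hp0 D.ne_zero (D.normalized_z.coeffMap _)
    (hg'n.mul (D.normalized_z.pow a))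
  rw [← map_pow, D.z_pow]
  show coeffMap (φ : L →+* L) (D.f0 : LaurentSeries L) = _
  rw [hg, mul_pow, hg'p, ← pow_mul, mul_comm a p, pow_mul, D.z_pow, mul_comm]
  rfl

theorem coeffMap_z_mem {φ : L ≃+* L} (h : D.Stable φ) :
    coeffMap (φ : L →+* L) D.z ∈ D.coverField := by
  obtain ⟨a, d, hd, -⟩ := D.exists_coeffMap_z h
  rw [hd]
  exact mul_mem (D.coverField.algebraMap_mem d) (pow_mem (mem_adjoin_simple_self F D.z) a)

theorem coeffMap_algebraMap_F_mem {φ : L ≃+* L} (h : D.Stable φ) (c : F) :
    coeffEquiv φ (algebraMap F (LaurentSeries L) c) ∈ (algebraMap F (LaurentSeries L)).range :=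
  ⟨⟨_, h.mapsF c c.2⟩, rfl⟩

/-- The ring automorphism of the cover field induced by a stable `φ`. -/
def coverEquiv (φ : L ≃+* L) (h : D.Stable φ) (h' : D.Stable φ.symm) :
    D.coverField ≃+* D.coverField :=
  restrictAdjoin (F := F) (z := D.z) (coeffEquiv φ) (D.coeffMap_algebraMap_F_mem h)
    (D.coeffMap_algebraMap_F_mem h') (D.coeffMap_z_mem h) (D.coeffMap_z_mem h')

@[simp]
theorem coe_coverEquiv_apply (φ : L ≃+* L) (h : D.Stable φ) (h' : D.Stable φ.symm)
    (x : D.coverField) :
    ((D.coverEquiv φ h h' x : D.coverField) : LaurentSeries L) =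
      coeffMap (φ : L →+* L) (x : LaurentSeries L) := rfl

theorem coverEquiv_algebraMap_L (φ : L ≃+* L) (h : D.Stable φ) (h' : D.Stable φ.symm) (c : L) :
    D.coverEquiv φ h h' (algebraMap L D.coverField c) = algebraMap L D.coverField (φ c) := by
  apply Subtype.ext
  rw [coe_coverEquiv_apply, coe_algebraMap_L, coe_algebraMap_L, coeffMap_C]
  rfl

/-- The semilinear automorphism of the cover field induced by a stable `φ`. -/
def coverAut (φ : L ≃+* L) (h : D.Stable φ) (h' : D.Stable φ.symm) :
    SemilinearAut L D.coverField :=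
  ⟨(D.coverEquiv φ h h', φ), fun c => D.coverEquiv_algebraMap_L φ h h' c⟩

@[simp]
theorem coe_coverAut_smul (φ : L ≃+* L) (h : D.Stable φ) (h' : D.Stable φ.symm)
    (x : D.coverField) :
    ((D.coverAut φ h h' • x : D.coverField) : LaurentSeries L) =
      coeffMap (φ : L →+* L) (x : LaurentSeries L) := rfl

/-- The restriction of `φ` to `F`, as a ring endomorphism. -/
def restrictF (φ : L ≃+* L) (h : D.Stable φ) : F →+* F where
  toFun x := ⟨coeffMap (φ : L →+* L) x, h.mapsF x x.2⟩
  map_one' := Subtype.ext (map_one _)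
  map_mul' _ _ := Subtype.ext (map_mul _ _ _)
  map_zero' := Subtype.ext (map_zero _)
  map_add' _ _ := Subtype.ext (map_add _ _ _)

/-- **The Galois action commutes with the deck transformation.** -/
theorem coverEquiv_sigma (φ : L ≃+* L) (h : D.Stable φ) (h' : D.Stable φ.symm)
    (x : D.coverField) :
    D.coverEquiv φ h h' (D.sigma x) = D.sigma (D.coverEquiv φ h h' x) := by
  obtain ⟨a, d, hd, hζ⟩ := D.exists_coeffMap_z h
  refine comm_kummerSigma D.prime D.hζF D.not_pow D.z_pow
    (D.coverEquiv φ h h' : D.coverField →+* D.coverField) (D.restrictF φ h) ?_ d a ?_ ?_ x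
  · intro c
    exact Subtype.ext rfl
  · exact Subtype.ext hd
  · apply Subtype.ext
    show coeffMap (φ : L →+* L) (algebraMap L (LaurentSeries L) D.ζ) = _
    rw [LaurentSeries.algebraMap_apply, coeffMap_C]
    show HahnSeries.C (φ D.ζ) = ((D.ζF ^ a : F) : LaurentSeries L)
    rw [hζ, map_pow]
    simp only [ζF, SubmonoidClass.coe_pow]
    rw [← LaurentSeries.algebraMap_apply]
    rfl

theorem coverAut_smul_sigma (φ : L ≃+* L) (h : D.Stable φ) (h' : D.Stable φ.symm)
    (x : D.coverField) :
    D.coverAut φ h h' • D.sigma x = D.sigma (D.coverAut φ h h' • x) :=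
  D.coverEquiv_sigma φ h h' x

theorem stable_symm {G : Type*} [Group G] (ρ : G →* RingAut L) (hρ : ∀ g, D.Stable (ρ g))
    (g : G) : D.Stable (ρ g).symm := by
  have := hρ g⁻¹
  rwa [map_inv] at this

/-- The action of a group `G` (e.g. an inertia group) on the cover field, as a homomorphism
into semilinear automorphisms, as soon as every element acts stably. -/
def coverGalois {G : Type*} [Group G] (ρ : G →* RingAut L) (hρ : ∀ g, D.Stable (ρ g)) :
    G →* SemilinearAut L D.coverField where
  toFun g := D.coverAut (ρ g) (hρ g) (D.stable_symm ρ hρ g)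
  map_one' := by
    refine Subtype.ext (Prod.ext (RingEquiv.ext fun x => Subtype.ext ?_) (map_one ρ))
    show coeffMap ((ρ 1 : L ≃+* L) : L →+* L) (x : LaurentSeries L) = (x : LaurentSeries L)
    rw [map_one, show (((1 : RingAut L) : L ≃+* L) : L →+* L) = RingHom.id L from
      RingHom.ext fun _ => rfl, coeffMap_id]
  map_mul' g g' := by
    refine Subtype.ext (Prod.ext (RingEquiv.ext fun x => Subtype.ext ?_) (map_mul ρ g g'))
    show coeffMap ((ρ (g * g') : L ≃+* L) : L →+* L) (x : LaurentSeries L) =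
      coeffMap ((ρ g : L ≃+* L) : L →+* L) (coeffMap ((ρ g' : L ≃+* L) : L →+* L)
        (x : LaurentSeries L))
    rw [coeffMap_coeffMap, map_mul]
    exact coeffMap_congr (RingHom.ext fun _ => rfl) _

@[simp]
theorem coe_coverGalois_smul {G : Type*} [Group G] (ρ : G →* RingAut L)
    (hρ : ∀ g, D.Stable (ρ g)) (g : G) (x : D.coverField) :
    ((D.coverGalois ρ hρ g • x : D.coverField) : LaurentSeries L) =
      coeffMap ((ρ g : L ≃+* L) : L →+* L) (x : LaurentSeries L) := rfl

theorem baseAut_coverGalois {G : Type*} [Group G] (ρ : G →* RingAut L)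
    (hρ : ∀ g, D.Stable (ρ g)) (g : G) :
    SemilinearAut.baseAut (D.coverGalois ρ hρ g) = ρ g := rfl

theorem coverGalois_smul_sigma {G : Type*} [Group G] (ρ : G →* RingAut L)
    (hρ : ∀ g, D.Stable (ρ g)) (g : G) (x : D.coverField) :
    D.coverGalois ρ hρ g • D.sigma x = D.sigma (D.coverGalois ρ hρ g • x) :=
  D.coverEquiv_sigma (ρ g) (hρ g) (D.stable_symm ρ hρ g) x

/-- The Galois action on the generator `z`. -/
theorem exists_coverGalois_smul_gen {G : Type*} [Group G] (ρ : G →* RingAut L)
    (hρ : ∀ g, D.Stable (ρ g)) (g : G) :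
    ∃ (a : ℕ) (d : F), D.coverGalois ρ hρ g • D.gen = algebraMap F D.coverField d * D.gen ^ a ∧
      ρ g D.ζ = D.ζ ^ a := by
  obtain ⟨a, d, hd, hζ⟩ := D.exists_coeffMap_z (hρ g)
  exact ⟨a, d, Subtype.ext hd, hζ⟩

end CoverDatum

end Fermat.Agent.S40x.R2.Cover
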