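import Fermat.Agent.S40x.R2.Cover.Action

/-!
# The Galois-fixed part of the Kummer cover field (R2 block B1 / C3-COV, leaf (E))

`G` acts on the cover field `FL' = F(z)` through `coverGalois`.  `fixedField` is the subfield
`FL_0` of `G`-fixed elements (the "`K0`-form" of the cover).  The deck transformation `σ` commutes
with `G`, hence restricts to `sigma0 : FL_0 ≃+* FL_0`, and the fixed field of `sigma0` is
`FL_0 ∩ F`.
-/

set_option autoImplicit false

noncomputable section

namespace Fermat.Agent.S40x.R2.Cover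

open HahnSeries ModularCurve IntermediateField AlgebraicCurve

variable {L : Type*} [Field L]

namespace CoverDatum

variable {F : IntermediateField L (LaurentSeries L)} {p : ℕ} (D : CoverDatum F p)
variable {G : Type*} [Group G] (ρ : G →* RingAut L) (hρ : ∀ g, D.Stable (ρ g))

/-- The `G`-action on the cover field as a `MulSemiringAction` (not an instance: it depends on
`ρ`). -/
@[reducible] def coverAction : MulSemiringAction G D.coverField :=
  MulSemiringAction.compHom D.coverField (D.coverGalois ρ hρ)

theorem coverAction_smul_def (g : G) (x : D.coverField) :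
    (letI := D.coverAction ρ hρ; g • x) = D.coverGalois ρ hρ g • x := rfl

/-- The subfield `FL_0` of `G`-fixed elements of the cover field. -/
def fixedField : Subfield D.coverField :=
  letI := D.coverAction ρ hρ
  FixedPoints.subfield G D.coverField

theorem mem_fixedField_iff {x : D.coverField} :
    x ∈ D.fixedField ρ hρ ↔ ∀ g : G, D.coverGalois ρ hρ g • x = x := Iff.rfl

theorem mem_fixedField_iff_coeffMap {x : D.coverField} :
    x ∈ D.fixedField ρ hρ ↔
      ∀ g : G, coeffMap ((ρ g : L ≃+* L) : L →+* L) (x : LaurentSeries L) = x := by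
  rw [mem_fixedField_iff]
  refine forall_congr' fun g => ?_
  rw [← coe_coverGalois_smul D ρ hρ g x]
  exact Subtype.ext_iff

theorem sigma_mem_fixedField {x : D.coverField} (hx : x ∈ D.fixedField ρ hρ) :
    D.sigma x ∈ D.fixedField ρ hρ := by
  rw [mem_fixedField_iff] at hx ⊢
  intro g
  rw [coverGalois_smul_sigma, hx g]

theorem sigma_symm_mem_fixedField {x : D.coverField} (hx : x ∈ D.fixedField ρ hρ) :
    D.sigma.symm x ∈ D.fixedField ρ hρ := by
  rw [mem_fixedField_iff] at hx ⊢
  intro g
  apply D.sigma.injective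
  rw [← coverGalois_smul_sigma, AlgEquiv.apply_symm_apply, hx g]

/-- The deck transformation restricted to the fixed field `FL_0`. -/
def sigma0 : D.fixedField ρ hρ ≃+* D.fixedField ρ hρ where
  toFun x := ⟨D.sigma x, D.sigma_mem_fixedField ρ hρ x.2⟩
  invFun x := ⟨D.sigma.symm x, D.sigma_symm_mem_fixedField ρ hρ x.2⟩
  left_inv x := Subtype.ext (D.sigma.symm_apply_apply x)
  right_inv x := Subtype.ext (D.sigma.apply_symm_apply x)
  map_mul' x y := Subtype.ext (map_mul D.sigma (x : D.coverField) y)
  map_add' x y := Subtype.ext (map_add D.sigma (x : D.coverField) y)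

@[simp]
theorem coe_sigma0_apply (x : D.fixedField ρ hρ) :
    ((D.sigma0 ρ hρ x : D.fixedField ρ hρ) : D.coverField) = D.sigma x := rfl

theorem coe_sigma0_pow_apply (k : ℕ) (x : D.fixedField ρ hρ) :
    (((D.sigma0 ρ hρ ^ k) x : D.fixedField ρ hρ) : D.coverField) = (D.sigma ^ k) x := by
  induction k generalizing x with
  | zero => rfl
  | succ k ih =>
    rw [pow_succ, pow_succ, RingAut.mul_apply, AlgEquiv.mul_apply, ih, coe_sigma0_apply]

theorem sigma0_pow_p : D.sigma0 ρ hρ ^ p = 1 := by
  have h := pow_orderOf_eq_one D.sigma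
  rw [D.orderOf_sigma] at h
  refine RingEquiv.ext fun x => Subtype.ext ?_
  rw [coe_sigma0_pow_apply, h]
  rfl

/-- The fixed field of `sigma0` is `FL_0 ∩ F`. -/
theorem sigma0_eq_self_iff {x : D.fixedField ρ hρ} :
    D.sigma0 ρ hρ x = x ↔ (x : D.coverField) ∈ Set.range (algebraMap F D.coverField) := by
  constructor
  · intro h
    exact D.mem_range_of_sigma_eq (congrArg Subtype.val h)
  · rintro ⟨y, hy⟩
    apply Subtype.ext
    rw [coe_sigma0_apply, ← hy, AlgEquiv.commutes]

/-- The subfield `F_0` of `G`-fixed elements of the base field `F`. -/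
def fixedBase (F : IntermediateField L (LaurentSeries L)) {G : Type*} [Group G]
    (ρ : G →* RingAut L) : Subfield F where
  carrier := {x | ∀ g : G, coeffMap ((ρ g : L ≃+* L) : L →+* L) (x : LaurentSeries L) = x}
  mul_mem' {x y} hx hy g := by
    rw [MulMemClass.coe_mul, map_mul, hx g, hy g]
  one_mem' g := by rw [OneMemClass.coe_one, map_one]
  add_mem' {x y} hx hy g := by
    rw [AddMemClass.coe_add, map_add, hx g, hy g]
  zero_mem' g := by rw [ZeroMemClass.coe_zero, map_zero]
  neg_mem' {x} hx g := by
    rw [NegMemClass.coe_neg, map_neg, hx g]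
  inv_mem' x hx g := by
    show coeffMap _ ((x⁻¹ : F) : LaurentSeries L) = ((x⁻¹ : F) : LaurentSeries L)
    rw [IntermediateField.coe_inv, map_inv₀, hx g]

theorem mem_fixedBase_iff {x : F} :
    x ∈ fixedBase F ρ ↔
      ∀ g : G, coeffMap ((ρ g : L ≃+* L) : L →+* L) (x : LaurentSeries L) = x := Iff.rfl

theorem algebraMap_mem_fixedField_iff {y : F} :
    algebraMap F D.coverField y ∈ D.fixedField ρ hρ ↔ y ∈ fixedBase F ρ := by
  rw [mem_fixedField_iff_coeffMap, mem_fixedBase_iff]
  rfl

/-- An element of `FL_0` is fixed by `sigma0` iff it comes from `F_0`. -/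
theorem sigma0_eq_self_iff_fixedBase {x : D.fixedField ρ hρ} :
    D.sigma0 ρ hρ x = x ↔ ∃ y ∈ fixedBase F ρ, algebraMap F D.coverField y = x := by
  rw [sigma0_eq_self_iff]
  constructor
  · rintro ⟨y, hy⟩
    refine ⟨y, ?_, hy⟩
    rw [← algebraMap_mem_fixedField_iff D ρ hρ, hy]
    exact x.2
  · rintro ⟨y, -, hy⟩
    exact ⟨y, hy⟩

/-- Constants fixed by `G` lie in the fixed field. -/
theorem algebraMap_L_mem_fixedField {c : L} (hc : ∀ g : G, ρ g c = c) :
    algebraMap L D.coverField c ∈ D.fixedField ρ hρ := by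
  rw [mem_fixedField_iff_coeffMap]
  intro g
  rw [coe_algebraMap_L, coeffMap_C]
  exact congrArg _ (hc g)

end CoverDatum

end Fermat.Agent.S40x.R2.Cover
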