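import Fermat.Agent.S40x.R2.Cover.Fixed

/-!
# `FL₀ / F₀` is cyclic Galois, generated by `σ₀` (P-S44, block C3, item [FP] of C3-ASM v1)

On top of `Cover/Fixed.lean` (helper48): `D.fixedField ρ hρ : Subfield D.coverField` (`= FL₀`),
`fixedBase F ρ : Subfield F` (`= F₀`), `D.sigma0 ρ hρ : FL₀ ≃+* FL₀`.

This file packages them in the shape consumed by `R2/Asm/Core.c3_core_pair` and by
`R2/Transitive.ord_sub_dvd_of_generator`:

* type synonyms `FixedBase F ρ` (`= F₀`) and `D.FixedCover ρ hρ` (`= FL₀`) with `Field` instances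
  (synonyms, not reducible, so that typeclass search between them does not wander through the
  `Subfield`/`IntermediateField` coercions), the identity ring isomorphisms
  `FixedBase.ofSub`, `D.toFixedCover` from the subfields, the inclusions `FixedBase.val`,
  `D.fixedVal`, and `Algebra (FixedBase F ρ) (D.FixedCover ρ hρ)`;
* `D.sigma0Alg ρ hρ : FL₀ ≃ₐ[F₀] FL₀`, the restriction of `σ` (`fixedVal_sigma0Alg`,
  `sigma0Alg_toFixedCover`), `sigma0Alg_pow_p`;
* `sigma0Alg_eq_of_coe` : adapter turning the output `σ₀ ft = a h ^ p ft` of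
  `Kum/DescFixed.descent_fixed` (stated through coercions) into the `algebraMap` form;
* `exists_of_sigma0Alg_eq` : the fixed field of `σ₀` is `F₀`;
* `D.DeckGroup ρ hρ` `= zpowers σ₀` as a type, finite, with
  `IsGaloisGroup (DeckGroup) F₀ FL₀`; hence the instances `IsGalois F₀ FL₀`,
  `FiniteDimensional F₀ FL₀`;
* `mem_zpowers_sigma0Alg` (**hgen**): every `F₀`-automorphism of `FL₀` is a power of `σ₀`;
* `finrank_eq_orderOf`, `finrank_dvd_prime`, `finrank_eq_prime_iff` : `[FL₀ : F₀] = ord σ₀ ∈ {1, p}`,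
  and `= p` iff `σ₀ ≠ 1`.
-/

set_option autoImplicit false

noncomputable section

namespace Fermat.Agent.S40x.R2.Cover

open HahnSeries ModularCurve IntermediateField AlgebraicCurve

variable {L : Type*} [Field L]

/-! ### `F₀` as a type -/

/-- `F₀` as a type. -/
def FixedBase (F : IntermediateField L (LaurentSeries L)) {G : Type*} [Group G]
    (ρ : G →* RingAut L) : Type _ := ↥(CoverDatum.fixedBase F ρ)

namespace FixedBase

variable (F : IntermediateField L (LaurentSeries L)) {G : Type*} [Group G] (ρ : G →* RingAut L)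

instance : Field (FixedBase F ρ) := inferInstanceAs (Field ↥(CoverDatum.fixedBase F ρ))

/-- the identity, from the subfield `CoverDatum.fixedBase F ρ` to the type `FixedBase F ρ` -/
def ofSub : ↥(CoverDatum.fixedBase F ρ) ≃+* FixedBase F ρ := RingEquiv.refl _

/-- the inclusion `F₀ → F` -/
def val : FixedBase F ρ →+* F := (CoverDatum.fixedBase F ρ).subtype

variable {F ρ}

theorem val_injective : Function.Injective (val F ρ) := Subtype.val_injective

theorem val_mem (x : FixedBase F ρ) : val F ρ x ∈ CoverDatum.fixedBase F ρ := x.2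

@[simp] theorem val_ofSub (x : ↥(CoverDatum.fixedBase F ρ)) : val F ρ (ofSub F ρ x) = x := rfl

/-- an element of `F₀` from a fixed element of `F` -/
def mk (x : F) (hx : x ∈ CoverDatum.fixedBase F ρ) : FixedBase F ρ := ⟨x, hx⟩

@[simp] theorem val_mk (x : F) (hx : x ∈ CoverDatum.fixedBase F ρ) : val F ρ (mk x hx) = x := rfl

theorem ofSub_ne_zero {x : ↥(CoverDatum.fixedBase F ρ)} (hx : x ≠ 0) : ofSub F ρ x ≠ 0 := hx

theorem coeffMap_val (x : FixedBase F ρ) (g : G) :
    coeffMap ((ρ g : L ≃+* L) : L →+* L) ((val F ρ x : F) : LaurentSeries L) =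
      ((val F ρ x : F) : LaurentSeries L) := x.2 g

end FixedBase

namespace CoverDatum

variable {F : IntermediateField L (LaurentSeries L)} {p : ℕ} (D : CoverDatum F p)
variable {G : Type*} [Group G] (ρ : G →* RingAut L) (hρ : ∀ g, D.Stable (ρ g))

/-! ### `FL₀` as a type -/

/-- `FL₀` as a type. -/
def FixedCover : Type _ := ↥(D.fixedField ρ hρ)

instance : Field (D.FixedCover ρ hρ) := inferInstanceAs (Field ↥(D.fixedField ρ hρ))

/-- the identity, from the subfield `D.fixedField ρ hρ` to the type `D.FixedCover ρ hρ` -/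
def toFixedCover : ↥(D.fixedField ρ hρ) ≃+* D.FixedCover ρ hρ := RingEquiv.refl _

/-- the inclusion `FL₀ → FL'` -/
def fixedVal : D.FixedCover ρ hρ →+* D.coverField := (D.fixedField ρ hρ).subtype

theorem fixedVal_injective : Function.Injective (D.fixedVal ρ hρ) := Subtype.val_injective

theorem fixedVal_mem (x : D.FixedCover ρ hρ) : D.fixedVal ρ hρ x ∈ D.fixedField ρ hρ := x.2

@[simp] theorem fixedVal_toFixedCover (x : ↥(D.fixedField ρ hρ)) :
    D.fixedVal ρ hρ (D.toFixedCover ρ hρ x) = x := rfl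

/-- an element of `FL₀` from a fixed element of the cover field -/
def fixedMk (x : D.coverField) (hx : x ∈ D.fixedField ρ hρ) : D.FixedCover ρ hρ := ⟨x, hx⟩

@[simp] theorem fixedVal_fixedMk (x : D.coverField) (hx : x ∈ D.fixedField ρ hρ) :
    D.fixedVal ρ hρ (D.fixedMk ρ hρ x hx) = x := rfl

theorem coverGalois_smul_fixedVal (x : D.FixedCover ρ hρ) (g : G) :
    D.coverGalois ρ hρ g • D.fixedVal ρ hρ x = D.fixedVal ρ hρ x := x.2 g

/-- elements of `FL₀`, read inside `L((q))`, are fixed by the coefficientwise action -/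
theorem coeffMap_fixedVal (x : D.FixedCover ρ hρ) (g : G) :
    coeffMap ((ρ g : L ≃+* L) : L →+* L) ((D.fixedVal ρ hρ x : D.coverField) : LaurentSeries L) =
      ((D.fixedVal ρ hρ x : D.coverField) : LaurentSeries L) :=
  (D.mem_fixedField_iff_coeffMap ρ hρ).mp x.2 g

/-! ### The algebra structure `F₀ → FL₀` -/

/-- The inclusion `F₀ → FL₀`. -/
def baseToCover : FixedBase F ρ →+* D.FixedCover ρ hρ where
  toFun x := ⟨algebraMap F D.coverField (FixedBase.val F ρ x),
    (D.algebraMap_mem_fixedField_iff ρ hρ).mpr (FixedBase.val_mem x)⟩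
  map_one' := Subtype.ext (map_one _)
  map_mul' _ _ := Subtype.ext (map_mul _ _ _)
  map_zero' := Subtype.ext (map_zero _)
  map_add' _ _ := Subtype.ext (map_add _ _ _)

instance : Algebra (FixedBase F ρ) (D.FixedCover ρ hρ) := (D.baseToCover ρ hρ).toAlgebra

theorem fixedVal_algebraMap (x : FixedBase F ρ) :
    D.fixedVal ρ hρ (algebraMap (FixedBase F ρ) (D.FixedCover ρ hρ) x) =
      algebraMap F D.coverField (FixedBase.val F ρ x) := rfl

/-- the image of `F₀` in `FL₀`, read inside `L((q))` -/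
theorem coe_fixedVal_algebraMap (x : FixedBase F ρ) :
    ((D.fixedVal ρ hρ (algebraMap (FixedBase F ρ) (D.FixedCover ρ hρ) x) : D.coverField) :
      LaurentSeries L) = ((FixedBase.val F ρ x : F) : LaurentSeries L) := rfl

/-! ### `σ₀` as an `F₀`-algebra automorphism of `FL₀` -/

/-- The restriction `σ₀` of the deck transformation, as an automorphism of `FL₀` over `F₀`. -/
def sigma0Alg : D.FixedCover ρ hρ ≃ₐ[FixedBase F ρ] D.FixedCover ρ hρ where
  toFun x := D.sigma0 ρ hρ x
  invFun x := (D.sigma0 ρ hρ).symm x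
  left_inv x := (D.sigma0 ρ hρ).symm_apply_apply x
  right_inv x := (D.sigma0 ρ hρ).apply_symm_apply x
  map_mul' x y := map_mul (D.sigma0 ρ hρ) x y
  map_add' x y := map_add (D.sigma0 ρ hρ) x y
  commutes' _ := Subtype.ext (D.sigma.commutes _)

@[simp]
theorem fixedVal_sigma0Alg (x : D.FixedCover ρ hρ) :
    D.fixedVal ρ hρ (D.sigma0Alg ρ hρ x) = D.sigma (D.fixedVal ρ hρ x) := rfl

/-- compatibility with helper48's `sigma0` -/
theorem sigma0Alg_toFixedCover (x : ↥(D.fixedField ρ hρ)) :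
    D.sigma0Alg ρ hρ (D.toFixedCover ρ hρ x) = D.toFixedCover ρ hρ (D.sigma0 ρ hρ x) := rfl

/-- **Adapter for `Kum/DescFixed.descent_fixed`** (item [DI] of C3-ASM): the relation
`σ₀ ft = a h ^ p ft`, given through the coercions to the cover field, in the `AlgEquiv`/`algebraMap`
form consumed by `R2/Asm/Core.c3_core_pair`. -/
theorem sigma0Alg_eq_of_coe {ft h : ↥(D.fixedField ρ hρ)} {a : ↥(CoverDatum.fixedBase F ρ)}
    (hσ : ((D.sigma0 ρ hρ ft : D.fixedField ρ hρ) : D.coverField) =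
      algebraMap F D.coverField (a : F) * (h : D.coverField) ^ p * (ft : D.coverField)) :
    D.sigma0Alg ρ hρ (D.toFixedCover ρ hρ ft) =
      algebraMap (FixedBase F ρ) (D.FixedCover ρ hρ) (FixedBase.ofSub F ρ a) *
        (D.toFixedCover ρ hρ h) ^ p * D.toFixedCover ρ hρ ft := by
  apply D.fixedVal_injective ρ hρ
  rw [map_mul, map_mul, map_pow, fixedVal_algebraMap, FixedBase.val_ofSub, fixedVal_toFixedCover,
    fixedVal_toFixedCover, sigma0Alg_toFixedCover, fixedVal_toFixedCover]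
  exact hσ

theorem toFixedCover_ne_zero {x : ↥(D.fixedField ρ hρ)} (hx : x ≠ 0) :
    D.toFixedCover ρ hρ x ≠ 0 := hx

theorem fixedVal_sigma0Alg_pow (n : ℕ) (x : D.FixedCover ρ hρ) :
    D.fixedVal ρ hρ ((D.sigma0Alg ρ hρ ^ n) x) = (D.sigma ^ n) (D.fixedVal ρ hρ x) := by
  induction n generalizing x with
  | zero => rfl
  | succ n ih =>
    rw [pow_succ, pow_succ, AlgEquiv.mul_apply, AlgEquiv.mul_apply, ih, fixedVal_sigma0Alg]

theorem sigma_pow_p : D.sigma ^ p = 1 := by
  have h := pow_orderOf_eq_one D.sigma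
  rwa [D.orderOf_sigma] at h

theorem sigma0Alg_pow_p : D.sigma0Alg ρ hρ ^ p = 1 := by
  refine AlgEquiv.ext fun x => D.fixedVal_injective ρ hρ ?_
  rw [fixedVal_sigma0Alg_pow, sigma_pow_p]
  rfl

/-- **The fixed field of `σ₀` is `F₀`.** -/
theorem exists_of_sigma0Alg_eq {x : D.FixedCover ρ hρ} (hx : D.sigma0Alg ρ hρ x = x) :
    ∃ y : FixedBase F ρ, algebraMap (FixedBase F ρ) (D.FixedCover ρ hρ) y = x := by
  have h1 : D.sigma0 ρ hρ x = x := hx
  obtain ⟨y, hy, hyx⟩ := (D.sigma0_eq_self_iff_fixedBase ρ hρ).mp h1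
  exact ⟨FixedBase.mk y hy, D.fixedVal_injective ρ hρ hyx⟩

/-! ### The deck group of `FL₀ / F₀` -/

/-- The cyclic group generated by `σ₀`, as a type. -/
def DeckGroup : Type _ := ↥(Subgroup.zpowers (D.sigma0Alg ρ hρ))

instance : Group (D.DeckGroup ρ hρ) :=
  inferInstanceAs (Group ↥(Subgroup.zpowers (D.sigma0Alg ρ hρ)))

/-- the inclusion of the deck group into the automorphism group -/
def deckVal : D.DeckGroup ρ hρ →* (D.FixedCover ρ hρ ≃ₐ[FixedBase F ρ] D.FixedCover ρ hρ) :=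
  (Subgroup.zpowers (D.sigma0Alg ρ hρ)).subtype

theorem deckVal_injective : Function.Injective (D.deckVal ρ hρ) := Subtype.val_injective

instance : MulSemiringAction (D.DeckGroup ρ hρ) (D.FixedCover ρ hρ) :=
  MulSemiringAction.compHom _ (D.deckVal ρ hρ)

theorem deck_smul_def (g : D.DeckGroup ρ hρ) (x : D.FixedCover ρ hρ) :
    g • x = D.deckVal ρ hρ g x := rfl

instance : SMulCommClass (D.DeckGroup ρ hρ) (FixedBase F ρ) (D.FixedCover ρ hρ) :=
  ⟨fun g e x => by
    rw [deck_smul_def, deck_smul_def, Algebra.smul_def, Algebra.smul_def, map_mul,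
      AlgEquiv.commutes]⟩

instance : FaithfulSMul (D.DeckGroup ρ hρ) (D.FixedCover ρ hρ) :=
  ⟨fun h => D.deckVal_injective ρ hρ (AlgEquiv.ext h)⟩

/-- `σ₀` as an element of the deck group. -/
def deckGen : D.DeckGroup ρ hρ := ⟨D.sigma0Alg ρ hρ, Subgroup.mem_zpowers _⟩

theorem deckVal_deckGen : D.deckVal ρ hρ (D.deckGen ρ hρ) = D.sigma0Alg ρ hρ := rfl

theorem deckGen_smul (x : D.FixedCover ρ hρ) : D.deckGen ρ hρ • x = D.sigma0Alg ρ hρ x := rfl

theorem mem_zpowers_deckGen (g : D.DeckGroup ρ hρ) :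
    g ∈ Subgroup.zpowers (D.deckGen ρ hρ) := by
  obtain ⟨n, hn⟩ := Subgroup.mem_zpowers_iff.mp g.2
  refine Subgroup.mem_zpowers_iff.mpr ⟨n, D.deckVal_injective ρ hρ ?_⟩
  rw [map_zpow, deckVal_deckGen]
  exact hn

theorem isOfFinOrder_sigma0Alg : IsOfFinOrder (D.sigma0Alg ρ hρ) :=
  isOfFinOrder_iff_pow_eq_one.mpr ⟨p, D.prime.pos, D.sigma0Alg_pow_p ρ hρ⟩

instance : Finite (D.DeckGroup ρ hρ) := (D.isOfFinOrder_sigma0Alg ρ hρ).finite_zpowers

instance : Algebra.IsInvariant (FixedBase F ρ) (D.FixedCover ρ hρ) (D.DeckGroup ρ hρ) :=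
  ⟨fun _ hx => D.exists_of_sigma0Alg_eq ρ hρ (hx (D.deckGen ρ hρ))⟩

instance : IsGaloisGroup (D.DeckGroup ρ hρ) (FixedBase F ρ) (D.FixedCover ρ hρ) where
  faithful := inferInstance
  commutes := inferInstance
  isInvariant := inferInstance

/-! ### Artin: `FL₀ / F₀` is finite Galois with group `⟨σ₀⟩` -/

instance : IsGalois (FixedBase F ρ) (D.FixedCover ρ hρ) :=
  IsGaloisGroup.isGalois (D.DeckGroup ρ hρ) (FixedBase F ρ) (D.FixedCover ρ hρ)

instance : FiniteDimensional (FixedBase F ρ) (D.FixedCover ρ hρ) :=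
  IsGaloisGroup.finiteDimensional (D.DeckGroup ρ hρ) (FixedBase F ρ) (D.FixedCover ρ hρ)

theorem card_deckGroup : Nat.card (D.DeckGroup ρ hρ) = orderOf (D.sigma0Alg ρ hρ) :=
  Nat.card_zpowers _

theorem finrank_eq_orderOf :
    Module.finrank (FixedBase F ρ) (D.FixedCover ρ hρ) = orderOf (D.sigma0Alg ρ hρ) := by
  rw [← card_deckGroup]
  exact (IsGaloisGroup.card_eq_finrank (D.DeckGroup ρ hρ) (FixedBase F ρ)
    (D.FixedCover ρ hρ)).symm

/-- **hgen**: every `F₀`-automorphism of `FL₀` is a power of `σ₀`. -/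
theorem mem_zpowers_sigma0Alg (g : D.FixedCover ρ hρ ≃ₐ[FixedBase F ρ] D.FixedCover ρ hρ) :
    g ∈ Subgroup.zpowers (D.sigma0Alg ρ hρ) := by
  have hcard : Nat.card (Subgroup.zpowers (D.sigma0Alg ρ hρ)) =
      Nat.card (D.FixedCover ρ hρ ≃ₐ[FixedBase F ρ] D.FixedCover ρ hρ) := by
    rw [IsGalois.card_aut_eq_finrank, finrank_eq_orderOf, Nat.card_zpowers]
  have htop : Subgroup.zpowers (D.sigma0Alg ρ hρ) = ⊤ :=
    Subgroup.eq_top_of_card_eq _ hcard
  rw [htop]
  exact Subgroup.mem_top g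

theorem orderOf_sigma0Alg_dvd : orderOf (D.sigma0Alg ρ hρ) ∣ p :=
  orderOf_dvd_of_pow_eq_one (D.sigma0Alg_pow_p ρ hρ)

theorem finrank_dvd_prime : Module.finrank (FixedBase F ρ) (D.FixedCover ρ hρ) ∣ p := by
  rw [finrank_eq_orderOf]
  exact D.orderOf_sigma0Alg_dvd ρ hρ

/-- `[FL₀ : F₀] = p` iff `σ₀` is not the identity, iff `FL₀` is not contained in `F`. -/
theorem finrank_eq_prime_iff :
    Module.finrank (FixedBase F ρ) (D.FixedCover ρ hρ) = p ↔ D.sigma0Alg ρ hρ ≠ 1 := by
  rw [finrank_eq_orderOf]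
  constructor
  · intro h h1
    rw [h1, orderOf_one] at h
    exact D.prime.one_lt.ne h
  · intro h
    rcases (Nat.dvd_prime D.prime).mp (D.orderOf_sigma0Alg_dvd ρ hρ) with h1 | h1
    · exact absurd (orderOf_eq_one_iff.mp h1) h
    · exact h1

/-- a witness of nontriviality: an element of `FL₀` outside `F` forces degree `p` -/
theorem finrank_eq_prime_of_not_mem_range {x : D.FixedCover ρ hρ}
    (hx : (D.fixedVal ρ hρ x) ∉ Set.range (algebraMap F D.coverField)) :
    Module.finrank (FixedBase F ρ) (D.FixedCover ρ hρ) = p := by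
  rw [finrank_eq_prime_iff]
  intro h1
  apply hx
  have h2 : D.sigma0 ρ hρ x = x := by
    have := congrArg (fun e : D.FixedCover ρ hρ ≃ₐ[FixedBase F ρ] D.FixedCover ρ hρ => e x) h1
    exact this
  exact (D.sigma0_eq_self_iff ρ hρ).mp h2

end CoverDatum

end Fermat.Agent.S40x.R2.Cover
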