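import Fermat.Agent.S40x.R2.Cover.Fixed
import Fermat.Agent.S40x.R2.KummerFunctions
import Fermat.Agent.S19x.Geo.CuspOrd

/-!
# The Kummer cover of the modular curve attached to a `p`-torsion class (seam C3-KF → C3-COV)

`F = modularFunctionFieldBar N ⊆ ℚ̄((q))`.  For `l0 : JZero N`, `l0 ≠ 0`, with a normalised
Kummer function `u0` (`div u0 = p D0`, `[D0] = l0`, leading `q`-coefficient one), we build the
`CoverDatum` of `Cover/Field.lean`, and show that every `σ ∈ G_ℚ` with `σ l0 = a l0` and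
`σ ζ = ζ ^ a` is `Stable`.
-/

set_option autoImplicit false

noncomputable section

namespace Fermat.Agent.S40x.R2.Cover

open HahnSeries ModularCurve AlgebraicCurve Fermat.Agent.Gateway.Kummer
open Fermat.Agent.S19x.Geo.CuspOo Fermat.Agent.S19x.Geo.CuspOrd

local notation "Qb" => AlgebraicClosure ℚ
local notation "Γℚ" => (AlgebraicClosure ℚ ≃ₐ[ℚ] AlgebraicClosure ℚ)

variable {N : ℕ} [NeZero N] {p : ℕ}

omit [NeZero N] in
/-- (M1) Kummer functions can be normalised: leading `q`-coefficient one. -/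
theorem exists_normalized_kummer {l0 : JZero N} {u : modularFunctionFieldBar N}
    (hu : IsKummerRep p l0 u) :
    ∃ u0 : modularFunctionFieldBar N, IsKummerRep p l0 u0 ∧
      Normalized (u0 : LaurentSeries Qb) := by
  have hu0 : (u : LaurentSeries Qb) ≠ 0 := fun h => hu.ne_zero (Subtype.ext h)
  have hc : (u : LaurentSeries Qb).leadingCoeff ≠ 0 := HahnSeries.leadingCoeff_ne_zero.mpr hu0
  refine ⟨algebraMap Qb (modularFunctionFieldBar N) ((u : LaurentSeries Qb).leadingCoeff)⁻¹ * u,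
    hu.const_mul (inv_ne_zero hc), ?_⟩
  have := normalized_C_inv_mul hu0
  rw [← LaurentSeries.algebraMap_apply] at this
  exact this

/-- `p ∣ ord_q u0` for a Kummer function `u0`. -/
theorem dvd_order_of_isKummerRep {l0 : JZero N} {u0 : modularFunctionFieldBar N}
    (hu0 : IsKummerRep p l0 u0) : (p : ℤ) ∣ (u0 : LaurentSeries Qb).order := by
  have h := hu0.dvd_ord (ooPlace Qb N)
  rwa [ord_ooPlace hu0.ne_zero] at h

/-- (M2) The cover datum attached to a normalised Kummer function of a nonzero `p`-torsion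
class. -/
def coverDatumOfKummer (hp : p.Prime) {ζ : Qb} (hζ : IsPrimitiveRoot ζ p) {l0 : JZero N}
    (hl0 : l0 ≠ 0) {u0 : modularFunctionFieldBar N} (hu0 : IsKummerRep p l0 u0)
    (hnorm : Normalized (u0 : LaurentSeries Qb)) :
    CoverDatum (modularFunctionFieldBar N) p where
  prime := hp
  ne_zero := by exact_mod_cast hp.ne_zero
  ζ := ζ
  hζ := hζ
  f0 := u0
  adm := ⟨hnorm, dvd_order_of_isKummerRep hu0⟩
  not_pow g hg := hl0 (hu0.eq_zero_of_eq_pow hp.ne_zero hg.symm)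

@[simp] theorem coverDatumOfKummer_f0 (hp : p.Prime) {ζ : Qb} (hζ : IsPrimitiveRoot ζ p)
    {l0 : JZero N} (hl0 : l0 ≠ 0) {u0 : modularFunctionFieldBar N} (hu0 : IsKummerRep p l0 u0)
    (hnorm : Normalized (u0 : LaurentSeries Qb)) :
    (coverDatumOfKummer hp hζ hl0 hu0 hnorm).f0 = u0 := rfl

@[simp] theorem coverDatumOfKummer_ζ (hp : p.Prime) {ζ : Qb} (hζ : IsPrimitiveRoot ζ p)
    {l0 : JZero N} (hl0 : l0 ≠ 0) {u0 : modularFunctionFieldBar N} (hu0 : IsKummerRep p l0 u0)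
    (hnorm : Normalized (u0 : LaurentSeries Qb)) :
    (coverDatumOfKummer hp hζ hl0 hu0 hnorm).ζ = ζ := rfl

/-- (M3) **Stability.**  If `σ l0 = a l0` and `σ ζ = ζ ^ a`, then `σ` is stable for the cover
datum of `l0`. -/
theorem stable_of_smul_eq (hp : p.Prime) {ζ : Qb} (hζ : IsPrimitiveRoot ζ p) {l0 : JZero N}
    (hl0 : l0 ≠ 0) {u0 : modularFunctionFieldBar N} (hu0 : IsKummerRep p l0 u0)
    (hnorm : Normalized (u0 : LaurentSeries Qb)) (σ : Γℚ) {a : ℕ} (h : σ • l0 = a • l0)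
    (hζa : σ ζ = ζ ^ a) :
    (coverDatumOfKummer hp hζ hl0 hu0 hnorm).Stable (σ : Qb ≃+* Qb) := by
  refine ⟨fun x hx => coeffMap_mem_laurentBaseChange σ hx, ?_⟩
  obtain ⟨c, k, hc0, hk0, hck⟩ := Fermat.Agent.S40x.R2.KF.coeffMap_kummer_self hu0 σ h
  obtain ⟨d, hd⟩ := IsAlgClosed.exists_pow_nat_eq c hp.pos
  refine ⟨a, algebraMap Qb (modularFunctionFieldBar N) d * k, ?_, hζa⟩
  show coeffMap (σ : Qb →+* Qb) (u0 : LaurentSeries Qb) = _
  rw [hck, ← hd, map_pow]
  simp only [coverDatumOfKummer_f0, MulMemClass.coe_mul]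
  have : ((algebraMap Qb (modularFunctionFieldBar N) d : modularFunctionFieldBar N) :
      LaurentSeries Qb) = algebraMap Qb (LaurentSeries Qb) d := rfl
  rw [this]
  ring

/-- (M4) The tautological homomorphism from a subgroup of `G_ℚ` to ring automorphisms
of `ℚ̄`. -/
def rhoOfSubgroup (I : Subgroup Γℚ) : I →* RingAut Qb where
  toFun σ := ((σ : Γℚ) : Qb ≃+* Qb)
  map_one' := rfl
  map_mul' _ _ := rfl

@[simp] theorem rhoOfSubgroup_apply (I : Subgroup Γℚ) (σ : I) (c : Qb) :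
    rhoOfSubgroup I σ c = (σ : Γℚ) c := rfl

/-- (M4) If every `σ ∈ I` acts on `l0` through an exponent `a` with `σ ζ = ζ ^ a` (i.e. through
the mod `p` cyclotomic character), then the whole of `I` acts stably. -/
theorem stable_rhoOfSubgroup (hp : p.Prime) {ζ : Qb} (hζ : IsPrimitiveRoot ζ p) {l0 : JZero N}
    (hl0 : l0 ≠ 0) {u0 : modularFunctionFieldBar N} (hu0 : IsKummerRep p l0 u0)
    (hnorm : Normalized (u0 : LaurentSeries Qb)) (I : Subgroup Γℚ)
    (hI : ∀ σ ∈ I, ∃ a : ℕ, σ • l0 = a • l0 ∧ σ ζ = ζ ^ a) (σ : I) :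
    (coverDatumOfKummer hp hζ hl0 hu0 hnorm).Stable (rhoOfSubgroup I σ) := by
  obtain ⟨a, h1, h2⟩ := hI σ σ.2
  exact stable_of_smul_eq hp hζ hl0 hu0 hnorm (σ : Γℚ) h1 h2

end Fermat.Agent.S40x.R2.Cover
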