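import Fermat.Agent.S40x.R2.Cover.Span
import Fermat.Agent.S40x.R2.Cover.Modular
import Fermat.Agent.S40x.Node.Vocab

/-!
# `F(z) ⊆ ℚ̄ · FL_0` for the modular Kummer cover (seam C3-COV → C3-CFE)

`Vocab.span_F0` (helper9): the inertia-fixed functions span the modular function field over `ℚ̄`.
Together with `Cover/Span.coverField_le_closure'` this gives the hypotheses `hF`, `hg` of
`CFE.dvd_of_eq_const_mul_pow` for the modular cover.
-/

set_option autoImplicit false

noncomputable section

namespace Fermat.Agent.S40x.R2.Cover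

open HahnSeries ModularCurve AlgebraicCurve Fermat.Agent.Gateway.Kummer
open Fermat.Agent.S40x.Node.Vocab CoverDatum

local notation "Qb" => AlgebraicClosure ℚ
local notation "Γℚ" => (AlgebraicClosure ℚ ≃ₐ[ℚ] AlgebraicClosure ℚ)

variable (P : ValuationSubring Qb) (N : ℕ)

/-- helper9's `F0 P N` is the `fixedBase` of the inertia group in the `coeffMap` vocabulary. -/
theorem mem_F0_iff_mem_fixedBase {f : modularFunctionFieldBar N} :
    f ∈ F0 P N ↔
      f ∈ fixedBase (modularFunctionFieldBar N) (rhoOfSubgroup (P.inertiaSubgroupIn ℚ)) := by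
  rw [mem_F0, mem_fixedBase_iff]
  constructor
  · intro h σ
    have := h (arithmeticGalois (modularFunctionFieldFull N) (σ : Γℚ)) ⟨σ, σ.2, rfl⟩
    have h2 := congrArg (fun y : modularFunctionFieldBar N => (y : LaurentSeries Qb)) this
    simp only [coe_arithmeticGalois_smul] at h2
    exact h2
  · rintro h _ ⟨σ, hσ, rfl⟩
    apply Subtype.ext
    rw [coe_arithmeticGalois_smul]
    exact h ⟨σ, hσ⟩

/-- **`F ⊆ ℚ̄ · F_0`** in the closure form consumed by `Cover/Span`. -/
theorem hFspan_modular (y : modularFunctionFieldBar N) :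
    (y : LaurentSeries Qb) ∈ Subfield.closure
      (((fun y : modularFunctionFieldBar N => (y : LaurentSeries Qb)) ''
          (fixedBase (modularFunctionFieldBar N) (rhoOfSubgroup (P.inertiaSubgroupIn ℚ)) :
            Set (modularFunctionFieldBar N))) ∪
        Set.range (algebraMap Qb (LaurentSeries Qb))) := by
  set M : Subfield (LaurentSeries Qb) := Subfield.closure
      (((fun y : modularFunctionFieldBar N => (y : LaurentSeries Qb)) ''
          (fixedBase (modularFunctionFieldBar N) (rhoOfSubgroup (P.inertiaSubgroupIn ℚ)) :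
            Set (modularFunctionFieldBar N))) ∪
        Set.range (algebraMap Qb (LaurentSeries Qb))) with hM
  have hy : y ∈ Submodule.span Qb ((F0 P N : Subfield _) :
      Set (laurentBaseChange Qb (modularFunctionFieldFull N))) := by
    rw [span_F0]; exact Submodule.mem_top
  induction hy using Submodule.span_induction with
  | mem f hf =>
    exact Subfield.subset_closure
      (Or.inl ⟨f, (mem_F0_iff_mem_fixedBase P N).mp hf, rfl⟩)
  | zero => exact M.zero_mem
  | add a b _ _ ha hb => exact M.add_mem ha hb
  | smul c a _ ha =>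
    have h1 : ((c • a : modularFunctionFieldBar N) : LaurentSeries Qb) =
        algebraMap Qb (LaurentSeries Qb) c * (a : LaurentSeries Qb) := by
      rw [Algebra.smul_def]; rfl
    rw [h1]
    exact M.mul_mem (Subfield.subset_closure (Or.inr ⟨c, rfl⟩)) ha

variable {P N} [NeZero N] {p : ℕ}

/-- **The modular Kummer cover is spanned by its inertia-fixed part**: if the normalised Kummer
function `u0` is fixed by the elements of the inertia group fixing `ζ`, then every element of the
cover field lies in `ℚ̄ · FL_0` (inside `ℚ̄((q))`). -/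
theorem coverField_le_closure_modular (hp : p.Prime) {ζ : Qb} (hζ : IsPrimitiveRoot ζ p)
    {l0 : JZero N} (hl0 : l0 ≠ 0) {u0 : modularFunctionFieldBar N} (hu0 : IsKummerRep p l0 u0)
    (hnorm : Normalized (u0 : LaurentSeries Qb))
    (hI : ∀ σ ∈ P.inertiaSubgroupIn ℚ, ∃ a : ℕ, σ • l0 = a • l0 ∧ σ ζ = ζ ^ a)
    (hfix : ∀ σ ∈ P.inertiaSubgroupIn ℚ, σ ζ = ζ →
      coeffMap (σ : Qb →+* Qb) (u0 : LaurentSeries Qb) = u0)
    (x : (coverDatumOfKummer hp hζ hl0 hu0 hnorm).coverField) :
    (x : LaurentSeries Qb) ∈ Subfield.closure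
      (((coverDatumOfKummer hp hζ hl0 hu0 hnorm).fixedFieldLS
          (rhoOfSubgroup (P.inertiaSubgroupIn ℚ))
          (stable_rhoOfSubgroup hp hζ hl0 hu0 hnorm _ hI) : Set (LaurentSeries Qb)) ∪
        Set.range (algebraMap Qb (LaurentSeries Qb))) := by
  refine CoverDatum.coverField_le_closure' _ _ _ ?_ (hFspan_modular P N) x
  intro g hg
  exact hfix g g.2 hg

end Fermat.Agent.S40x.R2.Cover
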