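import Fermat.Agent.S40x.R2.Cover.FixedGalois
import Fermat.Agent.S40x.R2.Cover.ModularSpan

/-!
# The base field `F0` of `FL_0/F_0` is the `G`-fixed part of `F` (C3-ASM seam [N] → [FP])

`D.F0 ρ hρ` (a subfield of `E0 = FL_0`) is identified with `fixedBase F ρ` (a subfield of `F`),
and in the modular case with helper9's `Vocab.F0 P N`.  Valuation subrings and order functions of
the latter can be transported along `baseIso`.
-/

set_option autoImplicit false

noncomputable section

namespace Fermat.Agent.S40x.R2.Cover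

open HahnSeries ModularCurve IntermediateField AlgebraicCurve

variable {L : Type*} [Field L]

namespace CoverDatum

variable {F : IntermediateField L (LaurentSeries L)} {p : ℕ} (D : CoverDatum F p)
variable {G : Type*} [Group G] (ρ : G →* RingAut L) (hρ : ∀ g, D.Stable (ρ g))

/-- The ring homomorphism `F_0 → E0`. -/
def baseToE0 : ↥(fixedBase F ρ) →+* D.E0 ρ hρ where
  toFun y := E0.mk D ρ hρ (algebraMap F D.coverField y)
    ((D.algebraMap_mem_fixedField_iff ρ hρ).mpr y.2)
  map_one' := E0.val_injective D ρ hρ (by simp)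
  map_mul' a b := E0.val_injective D ρ hρ (by simp)
  map_zero' := E0.val_injective D ρ hρ (by simp)
  map_add' a b := E0.val_injective D ρ hρ (by simp)

@[simp] theorem val_baseToE0 (y : fixedBase F ρ) :
    E0.val D ρ hρ (D.baseToE0 ρ hρ y) = algebraMap F D.coverField y := rfl

theorem baseToE0_mem_F0 (y : fixedBase F ρ) : D.baseToE0 ρ hρ y ∈ D.F0 ρ hρ :=
  (D.mem_F0_iff_fixedBase ρ hρ).mpr ⟨y, y.2, rfl⟩

/-- **`F_0 ≃ F0`**: the `G`-fixed part of `F` is the fixed field of `σ0` in `E0`. -/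
def baseIso : ↥(fixedBase F ρ) ≃+* ↥(D.F0 ρ hρ) :=
  RingEquiv.ofBijective
    ((D.baseToE0 ρ hρ).codRestrict (D.F0 ρ hρ) (D.baseToE0_mem_F0 ρ hρ))
    ⟨by
      intro a b hab
      have h1 := congrArg (fun z : D.F0 ρ hρ => E0.val D ρ hρ (z : D.E0 ρ hρ)) hab
      simp only [RingHom.codRestrict_apply, val_baseToE0] at h1
      exact Subtype.ext ((algebraMap F D.coverField).injective h1),
    by
      rintro ⟨x, hx⟩
      obtain ⟨y, hy, hyx⟩ := (D.mem_F0_iff_fixedBase ρ hρ).mp hx
      refine ⟨⟨y, hy⟩, Subtype.ext (E0.val_injective D ρ hρ ?_)⟩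
      simp only [RingHom.codRestrict_apply, val_baseToE0]
      exact hyx⟩

@[simp] theorem val_baseIso (y : fixedBase F ρ) :
    E0.val D ρ hρ ((D.baseIso ρ hρ y : D.F0 ρ hρ) : D.E0 ρ hρ) = algebraMap F D.coverField y :=
  rfl

theorem algebraMap_baseIso (y : fixedBase F ρ) :
    algebraMap (D.F0 ρ hρ) (D.E0 ρ hρ) (D.baseIso ρ hρ y) = D.baseToE0 ρ hρ y := rfl

/-- Transport of a valuation subring of `F_0` to `F0`. -/
def transportVS (O : ValuationSubring ↥(fixedBase F ρ)) : ValuationSubring ↥(D.F0 ρ hρ) :=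
  O.comap ((D.baseIso ρ hρ).symm : ↥(D.F0 ρ hρ) →+* ↥(fixedBase F ρ))

theorem mem_transportVS_iff (O : ValuationSubring ↥(fixedBase F ρ)) (y : fixedBase F ρ) :
    D.baseIso ρ hρ y ∈ D.transportVS ρ hρ O ↔ y ∈ O := by
  show (D.baseIso ρ hρ).symm (D.baseIso ρ hρ y) ∈ O ↔ y ∈ O
  rw [RingEquiv.symm_apply_apply]

theorem mem_transportVS_iff' (O : ValuationSubring ↥(fixedBase F ρ)) (e : D.F0 ρ hρ) :
    e ∈ D.transportVS ρ hρ O ↔ (D.baseIso ρ hρ).symm e ∈ O := Iff.rfl

end CoverDatum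

/-! ### Modular case: helper9's `Vocab.F0 P N` -/

section Modular

open Fermat.Agent.S40x.Node.Vocab CoverDatum

local notation "Qb" => AlgebraicClosure ℚ

variable (P : ValuationSubring Qb) (N : ℕ)

theorem F0_eq_fixedBase :
    F0 P N = fixedBase (modularFunctionFieldBar N) (rhoOfSubgroup (P.inertiaSubgroupIn ℚ)) :=
  SetLike.ext fun _ => mem_F0_iff_mem_fixedBase P N

/-- helper9's `F0 P N` as the `fixedBase` of the inertia group. -/
def vocabIso :
    ↥(F0 P N) ≃+*
      ↥(fixedBase (modularFunctionFieldBar N) (rhoOfSubgroup (P.inertiaSubgroupIn ℚ))) where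
  toFun y := ⟨y.1, (mem_F0_iff_mem_fixedBase P N).mp y.2⟩
  invFun y := ⟨y.1, (mem_F0_iff_mem_fixedBase P N).mpr y.2⟩
  left_inv _ := rfl
  right_inv _ := rfl
  map_mul' _ _ := rfl
  map_add' _ _ := rfl

@[simp] theorem coe_vocabIso (y : F0 P N) : ((vocabIso P N y : fixedBase _ _) :
    modularFunctionFieldBar N) = (y : modularFunctionFieldBar N) := rfl

end Modular

end Fermat.Agent.S40x.R2.Cover
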