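import Fermat.Agent.S40x.R2.Cover.Fixed

/-!
# The fixed part of the cover field is nontrivial and spans (C3-COV, seam to C3-CFE / C3-TRANS)

Setting of `Cover/Fixed.lean`.  Let `G1 = {g | ρ g ζ = ζ}` and assume `G1` has finite index in `G`
and fixes `f0` (so `f0` is "`K1`-rational").  Then `z` is `G1`-fixed and the trace
`Θ = ∑_{q ∈ G/G1} q • z` is a `G`-fixed element of the cover field which does not lie in `F`.
Consequences: `F(Θ) = F(z)`, `σ0 ≠ 1`, and `F(z) ⊆ L · FL_0` as soon as `F ⊆ L · F_0`.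
-/

set_option autoImplicit false

noncomputable section

namespace Fermat.Agent.S40x.R2.Cover

open HahnSeries ModularCurve IntermediateField AlgebraicCurve

variable {L : Type*} [Field L]

namespace CoverDatum

variable {F : IntermediateField L (LaurentSeries L)} {p : ℕ} (D : CoverDatum F p)
variable {G : Type*} [Group G] (ρ : G →* RingAut L) (hρ : ∀ g, D.Stable (ρ g))

/-- The subgroup `G1` of elements fixing `ζ`. -/
def G1 : Subgroup G where
  carrier := {g | ρ g D.ζ = D.ζ}
  one_mem' := by simp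
  mul_mem' {g h} hg hh := by
    show ρ (g * h) D.ζ = D.ζ
    rw [map_mul, RingAut.mul_apply, hh, hg]
  inv_mem' {g} hg := by
    show ρ g⁻¹ D.ζ = D.ζ
    rw [map_inv, RingAut.inv_apply]
    apply (ρ g).injective
    rw [RingEquiv.apply_symm_apply, hg]

theorem mem_G1_iff {g : G} : g ∈ D.G1 ρ ↔ ρ g D.ζ = D.ζ := Iff.rfl

/-- The Galois action on constants. -/
theorem coverGalois_smul_algebraMap_L (g : G) (c : L) :
    D.coverGalois ρ hρ g • algebraMap L D.coverField c = algebraMap L D.coverField (ρ g c) := by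
  apply Subtype.ext
  rw [coe_coverGalois_smul, coe_algebraMap_L, coe_algebraMap_L, coeffMap_C]
  rfl

/-- If `g` fixes `f0` then it fixes `z`. -/
theorem coverGalois_smul_gen_of_fixed {g : G}
    (hg : coeffMap ((ρ g : L ≃+* L) : L →+* L) (D.f0 : LaurentSeries L) = D.f0) :
    D.coverGalois ρ hρ g • D.gen = D.gen := by
  apply Subtype.ext
  rw [coe_coverGalois_smul, coe_gen]
  show coeffMap _ (nrt p (D.f0 : LaurentSeries L)) = nrt p (D.f0 : LaurentSeries L)
  rw [coeffMap_nrt p D.prime.ne_zero D.ne_zero D.ne_zero _ D.adm, hg]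

/-- `g • gen` is an eigenvector of `σ` with eigenvalue `ρ g ζ`. -/
theorem sigma_coverGalois_smul_gen (g : G) :
    D.sigma (D.coverGalois ρ hρ g • D.gen) =
      algebraMap L D.coverField (ρ g D.ζ) * (D.coverGalois ρ hρ g • D.gen) := by
  rw [← coverGalois_smul_sigma, sigma_gen, smul_mul', coverGalois_smul_algebraMap_L]

theorem coverGalois_smul_gen_ne_zero (g : G) : D.coverGalois ρ hρ g • D.gen ≠ 0 := by
  intro h
  have h2 : (D.coverGalois ρ hρ g)⁻¹ • (D.coverGalois ρ hρ g • D.gen) = 0 := by
    rw [h, smul_zero]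
  rw [inv_smul_smul] at h2
  exact gen_ne_zero D.prime D.not_pow D.z_pow h2

section Trace

variable (hfix : ∀ g ∈ D.G1 ρ, coeffMap ((ρ g : L ≃+* L) : L →+* L) (D.f0 : LaurentSeries L) = D.f0)

/-- The conjugate `g • z`, as a function on `G ⧸ G1`. -/
def conj : G ⧸ D.G1 ρ → D.coverField :=
  Quotient.lift (fun g : G => D.coverGalois ρ hρ g • D.gen) (by
    intro a b hab
    have hab' : a⁻¹ * b ∈ D.G1 ρ := QuotientGroup.leftRel_apply.mp hab
    show D.coverGalois ρ hρ a • D.gen = D.coverGalois ρ hρ b • D.gen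
    have hb : b = a * (a⁻¹ * b) := by group
    rw [hb, map_mul, mul_smul,
      D.coverGalois_smul_gen_of_fixed ρ hρ (hfix _ hab')])

theorem conj_mk (g : G) : D.conj ρ hρ hfix (QuotientGroup.mk g) = D.coverGalois ρ hρ g • D.gen :=
  rfl

/-- The eigenvalue of `σ` on `conj q`. -/
def chi : G ⧸ D.G1 ρ → L :=
  Quotient.lift (fun g : G => ρ g D.ζ) (by
    intro a b hab
    have hab' : a⁻¹ * b ∈ D.G1 ρ := QuotientGroup.leftRel_apply.mp hab
    show ρ a D.ζ = ρ b D.ζ
    have hb : b = a * (a⁻¹ * b) := by group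
    rw [hb, map_mul, RingAut.mul_apply, (D.mem_G1_iff ρ).mp hab'])

theorem chi_mk (g : G) : D.chi ρ (QuotientGroup.mk g) = ρ g D.ζ := rfl

theorem chi_injective : Function.Injective (D.chi ρ) := by
  intro a b hab
  induction a using QuotientGroup.induction_on with
  | H a =>
  induction b using QuotientGroup.induction_on with
  | H b =>
  rw [chi_mk, chi_mk] at hab
  rw [QuotientGroup.eq, mem_G1_iff, map_mul, map_inv, RingAut.mul_apply, ← hab,
    RingAut.inv_apply, RingEquiv.symm_apply_apply]

theorem chi_ne_one (q : G ⧸ D.G1 ρ) : D.chi ρ q ≠ 1 := by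
  induction q using QuotientGroup.induction_on with
  | H g =>
  rw [chi_mk]
  intro h
  have h1 : ρ g D.ζ = ρ g 1 := by rw [h, map_one]
  have h2 : D.ζ = 1 := (ρ g).injective h1
  exact D.hζ.ne_one D.prime.one_lt h2

theorem sigma_conj (q : G ⧸ D.G1 ρ) :
    D.sigma (D.conj ρ hρ hfix q) =
      algebraMap L D.coverField (D.chi ρ q) * D.conj ρ hρ hfix q := by
  induction q using QuotientGroup.induction_on with
  | H g => rw [conj_mk, chi_mk, sigma_coverGalois_smul_gen]

theorem conj_ne_zero (q : G ⧸ D.G1 ρ) : D.conj ρ hρ hfix q ≠ 0 := by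
  induction q using QuotientGroup.induction_on with
  | H g => rw [conj_mk]; exact D.coverGalois_smul_gen_ne_zero ρ hρ g

theorem smul_conj (g : G) (q : G ⧸ D.G1 ρ) :
    D.coverGalois ρ hρ g • D.conj ρ hρ hfix q = D.conj ρ hρ hfix (g • q) := by
  induction q using QuotientGroup.induction_on with
  | H h =>
  rw [conj_mk, ← mul_smul, ← map_mul]
  rfl

variable [Fintype (G ⧸ D.G1 ρ)]

/-- The trace `Θ = ∑_{q ∈ G/G1} q • z`. -/
def theta : D.coverField := ∑ q : G ⧸ D.G1 ρ, D.conj ρ hρ hfix q

theorem theta_mem_fixedField : D.theta ρ hρ hfix ∈ D.fixedField ρ hρ := by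
  rw [mem_fixedField_iff]
  intro g
  unfold theta
  rw [Finset.smul_sum]
  simp only [smul_conj]
  exact Equiv.sum_comp (MulAction.toPerm g : Equiv.Perm (G ⧸ D.G1 ρ)) (D.conj ρ hρ hfix)

omit [Fintype (G ⧸ D.G1 ρ)] in
/-- The conjugates of `z` are linearly independent over `F`. -/
theorem linearIndependent_conj : LinearIndependent F (D.conj ρ hρ hfix) := by
  have : Module.IsTorsionFree F D.coverField := ⟨fun r hr x y hxy => by
    have hr0 : r ≠ 0 := hr.ne_zero
    have h := congrArg (fun w : D.coverField => r⁻¹ • w) hxy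
    simpa only [smul_smul, inv_mul_cancel₀ hr0, one_smul] using h⟩
  refine Module.End.eigenvectors_linearIndependent' D.sigma.toLinearMap
    (fun q => algebraMap L F (D.chi ρ q)) ?_ (D.conj ρ hρ hfix) ?_
  · intro a b hab
    exact D.chi_injective ρ ((algebraMap L F).injective hab)
  · intro q
    rw [Module.End.hasEigenvector_iff, Module.End.mem_eigenspace_iff]
    refine ⟨?_, D.conj_ne_zero ρ hρ hfix q⟩
    rw [AlgEquiv.toLinearMap_apply, sigma_conj, Algebra.smul_def]
    rfl

/-- **`Θ` does not lie in `F`.** -/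
theorem theta_not_mem_range :
    D.theta ρ hρ hfix ∉ Set.range (algebraMap F D.coverField) := by
  rintro ⟨y, hy⟩
  have h1 : D.sigma (D.theta ρ hρ hfix) = D.theta ρ hρ hfix := by
    rw [← hy, AlgEquiv.commutes]
  have h2 : ∑ q : G ⧸ D.G1 ρ, (algebraMap L F (D.chi ρ q) - 1) • D.conj ρ hρ hfix q = 0 := by
    have : D.sigma (D.theta ρ hρ hfix) - D.theta ρ hρ hfix = 0 := sub_eq_zero.mpr h1
    rw [← this]
    unfold theta
    rw [map_sum, ← Finset.sum_sub_distrib]
    refine Finset.sum_congr rfl fun q _ => ?_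
    rw [sigma_conj, sub_smul, one_smul, Algebra.smul_def]
    rfl
  have h3 := (Fintype.linearIndependent_iff.mp (D.linearIndependent_conj ρ hρ hfix)) _ h2
    (QuotientGroup.mk 1)
  have h4 : algebraMap L F (D.chi ρ (QuotientGroup.mk 1)) = 1 := sub_eq_zero.mp h3
  rw [← map_one (algebraMap L F)] at h4
  exact D.chi_ne_one ρ _ ((algebraMap L F).injective h4)

/-- `F(Θ) = F(z)`. -/
theorem adjoin_theta_eq_top : F⟮D.theta ρ hρ hfix⟯ = (⊤ : IntermediateField F D.coverField) := by
  have : IsSimpleOrder (IntermediateField F D.coverField) :=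
    IntermediateField.isSimpleOrder_of_finrank_prime F D.coverField
      (by rw [D.finrank_coverField]; exact D.prime)
  rcases eq_bot_or_eq_top (F⟮D.theta ρ hρ hfix⟯) with h | h
  · exfalso
    apply D.theta_not_mem_range ρ hρ hfix
    have : D.theta ρ hρ hfix ∈ (⊥ : IntermediateField F D.coverField) := by
      rw [← h]; exact mem_adjoin_simple_self F _
    exact IntermediateField.mem_bot.mp this
  · exact h

include hfix in
/-- The restricted deck transformation `σ0` is nontrivial. -/
theorem sigma0_ne_one : D.sigma0 ρ hρ ≠ 1 := by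
  intro h
  have h1 : D.sigma0 ρ hρ ⟨D.theta ρ hρ hfix, D.theta_mem_fixedField ρ hρ hfix⟩ =
      ⟨D.theta ρ hρ hfix, D.theta_mem_fixedField ρ hρ hfix⟩ := by rw [h]; rfl
  exact D.theta_not_mem_range ρ hρ hfix ((D.sigma0_eq_self_iff ρ hρ).mp h1)

include hfix in
/-- `σ0` has order exactly `p`. -/
theorem orderOf_sigma0 : orderOf (D.sigma0 ρ hρ) = p := by
  have h1 : orderOf (D.sigma0 ρ hρ) ∣ p := orderOf_dvd_of_pow_eq_one (D.sigma0_pow_p ρ hρ)
  rcases (Nat.dvd_prime D.prime).mp h1 with h | h
  · exact absurd (orderOf_eq_one_iff.mp h) (D.sigma0_ne_one ρ hρ hfix)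
  · exact h

/-- The fixed field `FL_0` viewed inside `L((q))`. -/
def fixedFieldLS : Subfield (LaurentSeries L) :=
  (D.fixedField ρ hρ).map (algebraMap D.coverField (LaurentSeries L))

omit [Fintype (G ⧸ D.G1 ρ)] in
theorem mem_fixedFieldLS_iff {x : LaurentSeries L} :
    x ∈ D.fixedFieldLS ρ hρ ↔ ∃ y ∈ D.fixedField ρ hρ, (y : LaurentSeries L) = x := Iff.rfl

include hfix in
/-- **Span.**  If `F ⊆ L · F_0` then `F(z) ⊆ L · FL_0` (inside `L((q))`). -/
theorem coverField_le_closure
    (hFspan : ∀ y : F, (y : LaurentSeries L) ∈ Subfield.closure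
      (((fun y : F => (y : LaurentSeries L)) '' (fixedBase F ρ : Set F)) ∪
        Set.range (algebraMap L (LaurentSeries L))))
    (x : D.coverField) :
    (x : LaurentSeries L) ∈ Subfield.closure
      ((D.fixedFieldLS ρ hρ : Set (LaurentSeries L)) ∪
        Set.range (algebraMap L (LaurentSeries L))) := by
  set M : Subfield (LaurentSeries L) := Subfield.closure
      ((D.fixedFieldLS ρ hρ : Set (LaurentSeries L)) ∪
        Set.range (algebraMap L (LaurentSeries L))) with hM
  have hFM : ∀ y : F, (y : LaurentSeries L) ∈ M := by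
    intro y
    refine (Subfield.closure_mono ?_) (hFspan y)
    rintro w (⟨y0, hy0, rfl⟩ | hw)
    · left
      exact ⟨algebraMap F D.coverField y0,
        (D.algebraMap_mem_fixedField_iff ρ hρ).mpr hy0, rfl⟩
    · right; exact hw
  have hΘM : ((D.theta ρ hρ hfix : D.coverField) : LaurentSeries L) ∈ M :=
    Subfield.subset_closure (Or.inl ⟨_, D.theta_mem_fixedField ρ hρ hfix, rfl⟩)
  have hx : x ∈ F⟮D.theta ρ hρ hfix⟯ := by
    rw [D.adjoin_theta_eq_top ρ hρ hfix]; exact IntermediateField.mem_top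
  induction hx using IntermediateField.adjoin_induction with
  | mem y hy =>
    rw [Set.mem_singleton_iff] at hy
    subst hy
    exact hΘM
  | algebraMap y => exact hFM y
  | add a b _ _ ha hb => exact M.add_mem ha hb
  | inv a _ ha => exact M.inv_mem ha
  | mul a b _ _ ha hb => exact M.mul_mem ha hb

end Trace

/-! ### Instance-free forms: `G1` automatically has finite index -/

/-- `G ⧸ G1` embeds into the `p`-th roots of unity of `L`, hence is finite. -/
theorem finite_quotient_G1 : Finite (G ⧸ D.G1 ρ) := by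
  have hpos : 0 < p := D.prime.pos
  let f : G ⧸ D.G1 ρ → (Polynomial.nthRootsFinset p (1 : L)) := fun q =>
    ⟨D.chi ρ q, by
      induction q using QuotientGroup.induction_on with
      | H g =>
        rw [Polynomial.mem_nthRootsFinset hpos, chi_mk, ← map_pow, D.hζ.pow_eq_one, map_one]⟩
  refine Finite.of_injective f ?_
  intro a b hab
  exact D.chi_injective ρ (congrArg Subtype.val hab)

theorem finiteIndex_G1 : (D.G1 ρ).FiniteIndex := by
  have := D.finite_quotient_G1 ρ
  exact Subgroup.finiteIndex_of_finite_quotient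

variable (hfix : ∀ g ∈ D.G1 ρ, coeffMap ((ρ g : L ≃+* L) : L →+* L) (D.f0 : LaurentSeries L) = D.f0)

include hfix in
/-- **Nontriviality**: there is a `G`-fixed element of the cover field outside `F`. -/
theorem exists_mem_fixedField_not_mem_range :
    ∃ θ ∈ D.fixedField ρ hρ, θ ∉ Set.range (algebraMap F D.coverField) := by
  have := D.finite_quotient_G1 ρ
  let _ : Fintype (G ⧸ D.G1 ρ) := Fintype.ofFinite _
  exact ⟨D.theta ρ hρ hfix, D.theta_mem_fixedField ρ hρ hfix, D.theta_not_mem_range ρ hρ hfix⟩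

include hfix in
/-- `σ0` has order exactly `p` (no finiteness hypothesis). -/
theorem orderOf_sigma0_eq : orderOf (D.sigma0 ρ hρ) = p := by
  have := D.finite_quotient_G1 ρ
  let _ : Fintype (G ⧸ D.G1 ρ) := Fintype.ofFinite _
  exact D.orderOf_sigma0 ρ hρ hfix

include hfix in
/-- **Span** (no finiteness hypothesis): if `F ⊆ L · F_0` then `F(z) ⊆ L · FL_0`. -/
theorem coverField_le_closure'
    (hFspan : ∀ y : F, (y : LaurentSeries L) ∈ Subfield.closure
      (((fun y : F => (y : LaurentSeries L)) '' (fixedBase F ρ : Set F)) ∪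
        Set.range (algebraMap L (LaurentSeries L))))
    (x : D.coverField) :
    (x : LaurentSeries L) ∈ Subfield.closure
      ((D.fixedFieldLS ρ hρ : Set (LaurentSeries L)) ∪
        Set.range (algebraMap L (LaurentSeries L))) := by
  have := D.finite_quotient_G1 ρ
  let _ : Fintype (G ⧸ D.G1 ρ) := Fintype.ofFinite _
  exact D.coverField_le_closure ρ hρ hfix hFspan x

end CoverDatum

end Fermat.Agent.S40x.R2.Cover
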