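import Mathlib
import Fermat.Prelude.Def_ModularCurve_LaurentCoeff

/-!
# The constant field is algebraically closed in `L((q))` (R2 block B1 / C3-COV)

* `eq_C_of_isAlgebraic` : a Laurent series algebraic over `L` is a constant.
* `coeffMap_eq_self_iff` : fixed points of the coefficientwise action.
-/

set_option autoImplicit false

noncomputable section

namespace Fermat.Agent.S40x.R2.Cover

open HahnSeries ModularCurve WithZero

variable {L : Type*} [Field L]

theorem valued_C_le_one (c : L) : Valued.v (HahnSeries.C c : LaurentSeries L) ≤ (1 : ℤᵐ⁰) := by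
  rw [LaurentSeries.val_le_one_iff_eq_coe]
  exact ⟨PowerSeries.C c, by simp⟩

/-- An element of `L((q))` algebraic over `L` has valuation `≤ 1`. -/
theorem valued_le_one_of_isAlgebraic {x : LaurentSeries L} (hx : IsAlgebraic L x) :
    Valued.v x ≤ (1 : ℤᵐ⁰) := by
  set v : Valuation (LaurentSeries L) ℤᵐ⁰ := Valued.v with hv
  let ι : L →+* v.integer :=
    { toFun := fun c => ⟨HahnSeries.C c, valued_C_le_one c⟩
      map_one' := Subtype.ext (map_one _)
      map_mul' := fun a b => Subtype.ext (map_mul _ a b)
      map_zero' := Subtype.ext (map_zero _)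
      map_add' := fun a b => Subtype.ext (map_add _ a b) }
  let _ : Algebra L v.integer := ι.toAlgebra
  have htower := IsScalarTower.of_algebraMap_eq (R := L) (S := v.integer) (A := LaurentSeries L)
    (fun c => by rw [LaurentSeries.algebraMap_apply]; rfl)
  have hint : IsIntegral L x := hx.isIntegral
  have hint' : IsIntegral v.integer x := @IsIntegral.tower_top _ _ _ _ _ _ _ _ _ htower _ hint
  exact (Valuation.integer.integers v).isIntegral_iff_v_le_one.mp hint'

/-- A nonzero element of `L((q))` algebraic over `L` has valuation `1`. -/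
theorem valued_eq_one_of_isAlgebraic {x : LaurentSeries L} (hx : IsAlgebraic L x) (h0 : x ≠ 0) :
    Valued.v x = (1 : ℤᵐ⁰) := by
  apply le_antisymm (valued_le_one_of_isAlgebraic hx)
  have h1 := valued_le_one_of_isAlgebraic hx.inv
  rw [map_inv₀] at h1
  have hv0 : (Valued.v x : ℤᵐ⁰) ≠ 0 := (Valuation.ne_zero_iff _).mpr h0
  exact (inv_le_one₀ (zero_lt_iff.mpr hv0)).mp h1

/-- **`L` is algebraically closed in `L((q))`.** -/
theorem eq_C_of_isAlgebraic {x : LaurentSeries L} (hx : IsAlgebraic L x) :
    x = HahnSeries.C (x.coeff 0) := by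
  have hx1 := valued_le_one_of_isAlgebraic hx
  set y : LaurentSeries L := x - HahnSeries.C (x.coeff 0) with hy
  have hyalg : IsAlgebraic L y := by
    refine hx.sub ?_
    rw [← LaurentSeries.algebraMap_apply]
    exact isAlgebraic_algebraMap _
  by_contra hne
  have hy0 : y ≠ 0 := fun h => hne (sub_eq_zero.mp h)
  have hy1 := valued_eq_one_of_isAlgebraic hyalg hy0
  have hx0 : ∀ n : ℤ, n < 0 → x.coeff n = 0 := by
    have := (LaurentSeries.valuation_le_iff_coeff_lt_eq_zero L (D := 0) (f := x)).mp
      (by simpa using hx1)
    exact this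
  have hylt : Valued.v y ≤ exp (-(1 : ℤ)) := by
    rw [LaurentSeries.valuation_le_iff_coeff_lt_eq_zero]
    intro n hn
    rw [hy, HahnSeries.coeff_sub]
    have hn' : n ≤ 0 := by omega
    rcases lt_or_eq_of_le hn' with h | h
    · rw [hx0 n h, HahnSeries.C_apply, HahnSeries.coeff_single_of_ne h.ne, sub_zero]
    · subst h
      rw [HahnSeries.C_apply, HahnSeries.coeff_single_same, sub_self]
  rw [hy1] at hylt
  have : (1 : ℤᵐ⁰) = exp (0 : ℤ) := by simp
  rw [this, exp_le_exp] at hylt
  omega

theorem isAlgebraic_iff_mem_range {x : LaurentSeries L} :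
    IsAlgebraic L x ↔ x ∈ Set.range (algebraMap L (LaurentSeries L)) := by
  constructor
  · intro hx
    refine ⟨x.coeff 0, ?_⟩
    rw [LaurentSeries.algebraMap_apply]
    exact (eq_C_of_isAlgebraic hx).symm
  · rintro ⟨c, rfl⟩
    exact isAlgebraic_algebraMap c

/-- Fixed points of the coefficientwise action: all coefficients are fixed. -/
theorem coeffMap_eq_self_iff (φ : L →+* L) (x : LaurentSeries L) :
    coeffMap φ x = x ↔ ∀ n : ℤ, φ (x.coeff n) = x.coeff n := by
  constructor
  · intro h n
    have := congrArg (fun y => HahnSeries.coeff y n) h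
    simpa using this
  · intro h
    ext n
    rw [coeffMap_coeff, h n]

/-- The only constants in an intermediate field `E ⊆ L((q))` which are algebraic over `L`
are the elements of `L`: every subfield of `L((q))` containing `L` is a regular extension
of `L` in the sense that `L` is algebraically closed in it. -/
theorem isAlgebraic_iff_mem_range_of_intermediateField (E : IntermediateField L (LaurentSeries L))
    {x : E} : IsAlgebraic L x ↔ x ∈ Set.range (algebraMap L E) := by
  constructor
  · intro hx
    have hx' : IsAlgebraic L (x : LaurentSeries L) := by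
      have := hx.algebraMap (A := LaurentSeries L)
      exact this
    obtain ⟨c, hc⟩ := isAlgebraic_iff_mem_range.mp hx'
    exact ⟨c, Subtype.ext hc⟩
  · rintro ⟨c, rfl⟩
    exact isAlgebraic_algebraMap c

end Fermat.Agent.S40x.R2.Cover
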