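import Mathlib

/-!
# Degree-`p` Kummer extensions inside a given field (R2 block B1, leaf (E))

`F ⊆ E` fields, `ζ ∈ F` a primitive `p`-th root of unity, `a ∈ F` not a `p`-th power in `F`,
`z ∈ E` with `z ^ p = a`.  Then `F⟮z⟯ / F` is Galois of degree `p` with cyclic group generated by
`kummerSigma : z ↦ ζ z`.  (Thin wrapper around `Mathlib.FieldTheory.KummerExtension`.)
-/

set_option autoImplicit false

noncomputable section

namespace Fermat.Agent.S40x.R2.Cover

open Polynomial IntermediateField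

section Generic

variable {F E : Type*} [Field F] [Field E] [Algebra F E]
variable {p : ℕ} {ζ : F} {a : F} {z : E}

/-- `z ^ p = a` inside `F⟮z⟯`. -/
theorem gen_pow_eq (hz : z ^ p = algebraMap F E a) :
    (AdjoinSimple.gen F z) ^ p = algebraMap F F⟮z⟯ a := by
  apply Subtype.ext
  simpa using hz

theorem isIntegral_of_pow_eq (hp0 : p ≠ 0) (hz : z ^ p = algebraMap F E a) : IsIntegral F z := by
  refine ⟨X ^ p - C a, monic_X_pow_sub_C a hp0, ?_⟩
  simp [hz]

theorem irreducible_X_pow_sub_C (hp : p.Prime) (ha : ∀ b : F, b ^ p ≠ a) :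
    Irreducible (X ^ p - C a : F[X]) :=
  X_pow_sub_C_irreducible_of_prime hp ha

theorem primitiveRoots_nonempty (hp : p.Prime) (hζ : IsPrimitiveRoot ζ p) :
    (primitiveRoots p F).Nonempty :=
  ⟨ζ, (mem_primitiveRoots hp.pos).mpr hζ⟩

theorem isSplittingField_adjoin (hp : p.Prime) (hζ : IsPrimitiveRoot ζ p)
    (hz : z ^ p = algebraMap F E a) :
    IsSplittingField F F⟮z⟯ (X ^ p - C a) := by
  constructor
  · rw [Polynomial.map_sub, Polynomial.map_pow, Polynomial.map_C, Polynomial.map_X]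
    exact X_pow_sub_C_splits_of_isPrimitiveRoot
      (hζ.map_of_injective (algebraMap F F⟮z⟯).injective) (gen_pow_eq hz)
  · have halg : IsAlgebraic F z := (isIntegral_of_pow_eq hp.ne_zero hz).isAlgebraic
    rw [eq_top_iff]
    rintro ⟨x, hx⟩ -
    have hx' : x ∈ Algebra.adjoin F {z} := by
      rw [← adjoin_simple_toSubalgebra_of_isAlgebraic halg]
      exact hx
    -- transport to `F⟮z⟯`
    have key : ∀ y (hy : y ∈ Algebra.adjoin F {z}),
        (⟨y, by rw [← adjoin_simple_toSubalgebra_of_isAlgebraic halg] at hy; exact hy⟩ : F⟮z⟯) ∈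
          Algebra.adjoin F ((X ^ p - C a : F[X]).rootSet F⟮z⟯) := by
      intro y hy
      induction hy using Algebra.adjoin_induction with
      | mem y hy =>
        rw [Set.mem_singleton_iff] at hy
        subst hy
        apply Algebra.subset_adjoin
        rw [mem_rootSet_of_ne (X_pow_sub_C_ne_zero hp.pos a)]
        simp only [aeval_def, eval₂_sub, eval₂_X_pow, eval₂_C]
        rw [sub_eq_zero]
        exact gen_pow_eq hz
      | algebraMap r => exact Subalgebra.algebraMap_mem _ r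
      | add y y' hy hy' h h' => exact Subalgebra.add_mem _ h h'
      | mul y y' hy hy' h h' => exact Subalgebra.mul_mem _ h h'
    exact key x hx'

theorem finrank_adjoin (hp : p.Prime) (hζ : IsPrimitiveRoot ζ p)
    (ha : ∀ b : F, b ^ p ≠ a) (hz : z ^ p = algebraMap F E a) :
    Module.finrank F F⟮z⟯ = p := by
  have := isSplittingField_adjoin hp hζ hz
  exact finrank_of_isSplittingField_X_pow_sub_C (primitiveRoots_nonempty hp hζ)
    (irreducible_X_pow_sub_C hp ha) F⟮z⟯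

theorem isGalois_adjoin (hp : p.Prime) (hζ : IsPrimitiveRoot ζ p)
    (ha : ∀ b : F, b ^ p ≠ a) (hz : z ^ p = algebraMap F E a) :
    IsGalois F F⟮z⟯ := by
  have := isSplittingField_adjoin hp hζ hz
  exact isGalois_of_isSplittingField_X_pow_sub_C (primitiveRoots_nonempty hp hζ)
    (irreducible_X_pow_sub_C hp ha) F⟮z⟯

theorem finiteDimensional_adjoin (hp : p.Prime) (hz : z ^ p = algebraMap F E a) :
    FiniteDimensional F F⟮z⟯ :=
  adjoin.finiteDimensional (isIntegral_of_pow_eq hp.ne_zero hz)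

/-- The group isomorphism `Gal(F⟮z⟯/F) ≃ ZMod p`. -/
def kummerEquiv (hp : p.Prime) (hζ : IsPrimitiveRoot ζ p)
    (ha : ∀ b : F, b ^ p ≠ a) (hz : z ^ p = algebraMap F E a) :
    (F⟮z⟯ ≃ₐ[F] F⟮z⟯) ≃* Multiplicative (ZMod p) :=
  have := isSplittingField_adjoin hp hζ hz
  have : NeZero p := ⟨hp.ne_zero⟩
  autEquivZmod (irreducible_X_pow_sub_C hp ha) F⟮z⟯ hζ

/-- The generator `σ : z ↦ ζ z` of `Gal(F⟮z⟯/F)`. -/
def kummerSigma (hp : p.Prime) (hζ : IsPrimitiveRoot ζ p)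
    (ha : ∀ b : F, b ^ p ≠ a) (hz : z ^ p = algebraMap F E a) : F⟮z⟯ ≃ₐ[F] F⟮z⟯ :=
  (kummerEquiv hp hζ ha hz).symm (Multiplicative.ofAdd (1 : ZMod p))

theorem kummerSigma_gen (hp : p.Prime) (hζ : IsPrimitiveRoot ζ p)
    (ha : ∀ b : F, b ^ p ≠ a) (hz : z ^ p = algebraMap F E a) :
    kummerSigma hp hζ ha hz (AdjoinSimple.gen F z) = ζ • AdjoinSimple.gen F z := by
  have := isSplittingField_adjoin hp hζ hz
  have : NeZero p := ⟨hp.ne_zero⟩
  have := autEquivZmod_symm_apply_natCast (irreducible_X_pow_sub_C hp ha) F⟮z⟯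
    (gen_pow_eq hz) hζ 1
  simpa [kummerSigma, kummerEquiv] using this

theorem kummerSigma_pow_gen (hp : p.Prime) (hζ : IsPrimitiveRoot ζ p)
    (ha : ∀ b : F, b ^ p ≠ a) (hz : z ^ p = algebraMap F E a) (k : ℕ) :
    (kummerSigma hp hζ ha hz ^ k) (AdjoinSimple.gen F z) = ζ ^ k • AdjoinSimple.gen F z := by
  induction k with
  | zero => simp
  | succ k ih =>
    rw [pow_succ, AlgEquiv.mul_apply, kummerSigma_gen, map_smul, ih, smul_smul, pow_succ, mul_comm]

theorem kummerEquiv_kummerSigma (hp : p.Prime) (hζ : IsPrimitiveRoot ζ p)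
    (ha : ∀ b : F, b ^ p ≠ a) (hz : z ^ p = algebraMap F E a) :
    kummerEquiv hp hζ ha hz (kummerSigma hp hζ ha hz) = Multiplicative.ofAdd (1 : ZMod p) := by
  simp [kummerSigma]

theorem orderOf_kummerSigma (hp : p.Prime) (hζ : IsPrimitiveRoot ζ p)
    (ha : ∀ b : F, b ^ p ≠ a) (hz : z ^ p = algebraMap F E a) :
    orderOf (kummerSigma hp hζ ha hz) = p := by
  have : NeZero p := ⟨hp.ne_zero⟩
  rw [← orderOf_injective (kummerEquiv hp hζ ha hz).toMonoidHom (kummerEquiv hp hζ ha hz).injective]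
  show orderOf (kummerEquiv hp hζ ha hz (kummerSigma hp hζ ha hz)) = p
  rw [kummerEquiv_kummerSigma, orderOf_ofAdd_eq_addOrderOf, ZMod.addOrderOf_one]

/-- Every automorphism is a power of `kummerSigma`. -/
theorem exists_pow_eq (hp : p.Prime) (hζ : IsPrimitiveRoot ζ p)
    (ha : ∀ b : F, b ^ p ≠ a) (hz : z ^ p = algebraMap F E a) (τ : F⟮z⟯ ≃ₐ[F] F⟮z⟯) :
    ∃ k : ℕ, k < p ∧ τ = kummerSigma hp hζ ha hz ^ k := by
  have : NeZero p := ⟨hp.ne_zero⟩
  refine ⟨(Multiplicative.toAdd (kummerEquiv hp hζ ha hz τ)).val, ZMod.val_lt _, ?_⟩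
  apply (kummerEquiv hp hζ ha hz).injective
  rw [map_pow, kummerEquiv_kummerSigma, ← ofAdd_nsmul, nsmul_eq_mul, mul_one, ZMod.natCast_zmod_val]
  rfl

/-- An element fixed by `kummerSigma` lies in `F`. -/
theorem mem_range_of_kummerSigma_eq (hp : p.Prime) (hζ : IsPrimitiveRoot ζ p)
    (ha : ∀ b : F, b ^ p ≠ a) (hz : z ^ p = algebraMap F E a) {x : F⟮z⟯}
    (hx : kummerSigma hp hζ ha hz x = x) : x ∈ Set.range (algebraMap F F⟮z⟯) := by
  have := isGalois_adjoin hp hζ ha hz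
  have := finiteDimensional_adjoin (F := F) hp hz
  rw [IsGalois.mem_range_algebraMap_iff_fixed]
  intro τ
  obtain ⟨k, -, rfl⟩ := exists_pow_eq hp hζ ha hz τ
  induction k with
  | zero => simp
  | succ k ih => rw [pow_succ, AlgEquiv.mul_apply, hx, ih]

theorem minpoly_eq_X_pow_sub_C (hp : p.Prime) (ha : ∀ b : F, b ^ p ≠ a)
    (hz : z ^ p = algebraMap F E a) : minpoly F z = X ^ p - C a :=
  (minpoly.eq_of_irreducible_of_monic (irreducible_X_pow_sub_C hp ha) (by simp [hz])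
    (monic_X_pow_sub_C a hp.ne_zero)).symm

theorem powerBasis_dim_eq (hp : p.Prime) (ha : ∀ b : F, b ^ p ≠ a)
    (hz : z ^ p = algebraMap F E a) :
    (adjoin.powerBasis (isIntegral_of_pow_eq hp.ne_zero hz)).dim = p := by
  rw [adjoin.powerBasis_dim, minpoly_eq_X_pow_sub_C hp ha hz, natDegree_X_pow_sub_C]

/-- The basis `1, z, …, z^(p-1)` of `F⟮z⟯` over `F`. -/
def kummerBasis (hp : p.Prime) (ha : ∀ b : F, b ^ p ≠ a) (hz : z ^ p = algebraMap F E a) :
    Module.Basis (Fin p) F F⟮z⟯ :=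
  (adjoin.powerBasis (isIntegral_of_pow_eq hp.ne_zero hz)).basis.reindex
    (finCongr (powerBasis_dim_eq hp ha hz))

theorem kummerBasis_apply (hp : p.Prime) (ha : ∀ b : F, b ^ p ≠ a)
    (hz : z ^ p = algebraMap F E a) (i : Fin p) :
    kummerBasis hp ha hz i = AdjoinSimple.gen F z ^ (i : ℕ) := by
  simp [kummerBasis, adjoin.powerBasis_gen]

/-- `σ` acts on `z ^ i` through `ζ ^ i`. -/
theorem kummerSigma_gen_pow (hp : p.Prime) (hζ : IsPrimitiveRoot ζ p)
    (ha : ∀ b : F, b ^ p ≠ a) (hz : z ^ p = algebraMap F E a) (i : ℕ) :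
    kummerSigma hp hζ ha hz (AdjoinSimple.gen F z ^ i) = ζ ^ i • AdjoinSimple.gen F z ^ i := by
  rw [map_pow, kummerSigma_gen, _root_.smul_pow]

theorem gen_ne_zero (hp : p.Prime) (ha : ∀ b : F, b ^ p ≠ a) (hz : z ^ p = algebraMap F E a) :
    AdjoinSimple.gen F z ≠ 0 := by
  intro h
  have h1 := gen_pow_eq hz
  rw [h, zero_pow hp.ne_zero] at h1
  have h2 : a = 0 := by
    have := (algebraMap F F⟮z⟯).injective (a₁ := a) (a₂ := 0) (by rw [← h1, map_zero])
    exact this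
  exact ha 0 (by rw [zero_pow hp.ne_zero, h2])

/-- A `ζ ^ j`-eigenvector of `σ` is an `F`-multiple of `z ^ j`. -/
theorem eq_smul_gen_pow_of_kummerSigma_eq (hp : p.Prime) (hζ : IsPrimitiveRoot ζ p)
    (ha : ∀ b : F, b ^ p ≠ a) (hz : z ^ p = algebraMap F E a) {y : F⟮z⟯} {j : ℕ}
    (hy : kummerSigma hp hζ ha hz y = ζ ^ j • y) :
    ∃ c : F, y = c • AdjoinSimple.gen F z ^ j := by
  have hg := gen_ne_zero hp ha hz
  have hfix : kummerSigma hp hζ ha hz (y / AdjoinSimple.gen F z ^ j) =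
      y / AdjoinSimple.gen F z ^ j := by
    rw [map_div₀, hy, kummerSigma_gen_pow, Algebra.smul_def, Algebra.smul_def,
      mul_div_mul_left]
    rw [Ne, map_eq_zero]
    exact pow_ne_zero j (hζ.ne_zero hp.ne_zero)
  obtain ⟨c, hc⟩ := mem_range_of_kummerSigma_eq hp hζ ha hz hfix
  refine ⟨c, ?_⟩
  rw [Algebra.smul_def, hc, div_mul_cancel₀ _ (pow_ne_zero j hg)]

end Generic

/-! ### Ring automorphisms of the big field stabilising `F⟮z⟯` -/

section Restrict

variable {F E : Type*} [Field F] [Field E] [Algebra F E] {z : E}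

/-- A ring endomorphism `T` of `E` mapping `F` into `F` and `z` into `F⟮z⟯` maps `F⟮z⟯`
into itself. -/
theorem map_mem_adjoin_simple (T : E →+* E)
    (hF : ∀ c : F, T (algebraMap F E c) ∈ (algebraMap F E).range)
    (hz : T z ∈ F⟮z⟯) {x : E} (hx : x ∈ F⟮z⟯) : T x ∈ F⟮z⟯ := by
  induction hx using IntermediateField.adjoin_induction with
  | mem y hy =>
    rw [Set.mem_singleton_iff] at hy
    subst hy
    exact hz
  | algebraMap c =>
    obtain ⟨c', hc'⟩ := hF c
    rw [← hc']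
    exact IntermediateField.algebraMap_mem _ c'
  | add x y _ _ hx hy => rw [map_add]; exact add_mem hx hy
  | inv x _ hx => rw [map_inv₀]; exact inv_mem hx
  | mul x y _ _ hx hy => rw [map_mul]; exact mul_mem hx hy

/-- Two ring homomorphisms out of `F⟮z⟯` into a division ring which agree on `F` and on `z`
are equal. -/
theorem ringHom_ext_adjoin_simple {R : Type*} [DivisionRing R] (f g : F⟮z⟯ →+* R)
    (hF : ∀ c : F, f (algebraMap F F⟮z⟯ c) = g (algebraMap F F⟮z⟯ c))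
    (hz : f (AdjoinSimple.gen F z) = g (AdjoinSimple.gen F z)) : f = g := by
  refine RingHom.ext fun ⟨x, hx⟩ => ?_
  induction hx using IntermediateField.adjoin_induction with
  | mem y hy =>
    have hy' : y = z := hy
    subst hy'
    exact hz
  | algebraMap c => exact hF c
  | add x y hx hy h1 h2 =>
    have : (⟨x + y, add_mem hx hy⟩ : F⟮z⟯) = ⟨x, hx⟩ + ⟨y, hy⟩ := rfl
    rw [this, map_add, map_add, h1, h2]
  | inv x hx h1 =>
    have : (⟨x⁻¹, inv_mem hx⟩ : F⟮z⟯) = (⟨x, hx⟩ : F⟮z⟯)⁻¹ := rfl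
    rw [this, map_inv₀, map_inv₀, h1]
  | mul x y hx hy h1 h2 =>
    have : (⟨x * y, mul_mem hx hy⟩ : F⟮z⟯) = ⟨x, hx⟩ * ⟨y, hy⟩ := rfl
    rw [this, map_mul, map_mul, h1, h2]

/-- Restriction of a ring automorphism of `E` to `F⟮z⟯`. -/
def restrictAdjoin (T : E ≃+* E)
    (hF : ∀ c : F, T (algebraMap F E c) ∈ (algebraMap F E).range)
    (hF' : ∀ c : F, T.symm (algebraMap F E c) ∈ (algebraMap F E).range)
    (hz : T z ∈ F⟮z⟯) (hz' : T.symm z ∈ F⟮z⟯) : F⟮z⟯ ≃+* F⟮z⟯ where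
  toFun x := ⟨T x, map_mem_adjoin_simple (T : E →+* E) hF hz x.2⟩
  invFun x := ⟨T.symm x, map_mem_adjoin_simple (T.symm : E →+* E) hF' hz' x.2⟩
  left_inv x := Subtype.ext (T.symm_apply_apply x)
  right_inv x := Subtype.ext (T.apply_symm_apply x)
  map_mul' x y := Subtype.ext (map_mul T (x : E) y)
  map_add' x y := Subtype.ext (map_add T (x : E) y)

@[simp]
theorem coe_restrictAdjoin_apply (T : E ≃+* E)
    (hF : ∀ c : F, T (algebraMap F E c) ∈ (algebraMap F E).range)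
    (hF' : ∀ c : F, T.symm (algebraMap F E c) ∈ (algebraMap F E).range)
    (hz : T z ∈ F⟮z⟯) (hz' : T.symm z ∈ F⟮z⟯) (x : F⟮z⟯) :
    ((restrictAdjoin T hF hF' hz hz' x : F⟮z⟯) : E) = T x := rfl

/-- **Commutation with the Kummer generator.**  If a ring endomorphism `T'` of `F⟮z⟯` acts on
`F` through `t`, `T' z = d z^k` with `d ∈ F`, and `t ζ = ζ ^ k`, then `T'` commutes with
`σ : z ↦ ζ z`. -/
theorem comm_kummerSigma {p : ℕ} {ζ a : F} (hp : p.Prime)
    (hζ : IsPrimitiveRoot ζ p) (ha : ∀ b : F, b ^ p ≠ a) (hza : z ^ p = algebraMap F E a)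
    (T' : F⟮z⟯ →+* F⟮z⟯) (t : F →+* F)
    (hT'F : ∀ c : F, T' (algebraMap F F⟮z⟯ c) = algebraMap F F⟮z⟯ (t c))
    (d : F) (k : ℕ)
    (hT'z : T' (AdjoinSimple.gen F z) = algebraMap F F⟮z⟯ d * AdjoinSimple.gen F z ^ k)
    (hζk : t ζ = ζ ^ k) (x : F⟮z⟯) :
    T' (kummerSigma hp hζ ha hza x) = kummerSigma hp hζ ha hza (T' x) := by
  set σ := kummerSigma hp hζ ha hza with hσ
  have key : T'.comp (σ : F⟮z⟯ →+* F⟮z⟯) = (σ : F⟮z⟯ →+* F⟮z⟯).comp T' := by
    apply ringHom_ext_adjoin_simple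
    · intro c
      simp only [RingHom.comp_apply, RingHom.coe_coe, AlgEquiv.commutes, hT'F]
    · simp only [RingHom.comp_apply, RingHom.coe_coe]
      rw [hσ, kummerSigma_gen, ← hσ, Algebra.smul_def, map_mul, hT'F, hT'z, map_mul,
        AlgEquiv.commutes, hζk, hσ, kummerSigma_gen_pow, Algebra.smul_def, map_pow]
      ring
  exact congrArg (fun f => f x) key

end Restrict

end Fermat.Agent.S40x.R2.Cover
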