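import Fermat.Agent.S40x.R2.Cover.NormRoot
import Fermat.Agent.S40x.R2.Cover.Kummer

/-!
# The Kummer cover field inside `L((q))` (R2 block B1, leaf (E))

`F ⊆ L((q))` an intermediate field (a function field given by `q`-expansions), `f0 ∈ F`
normalised with `p ∣ ord_q f0`, not a `p`-th power in `F`; `z := nrt p f0` the normalised `p`-th
root.  `coverField := F⟮z⟯ ⊆ L((q))`.
-/

set_option autoImplicit false

noncomputable section

namespace Fermat.Agent.S40x.R2.Cover

open HahnSeries ModularCurve IntermediateField

variable {L : Type*} [Field L]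

/-- The data defining a degree-`p` Kummer cover of a function field `F ⊆ L((q))`, realised inside
`L((q))`. -/
structure CoverDatum (F : IntermediateField L (LaurentSeries L)) (p : ℕ) where
  /-- `p` is prime -/
  prime : p.Prime
  /-- `p` is invertible in the constant field -/
  ne_zero : (p : L) ≠ 0
  /-- a primitive `p`-th root of unity -/
  ζ : L
  /-- `ζ` is a primitive `p`-th root of unity -/
  hζ : IsPrimitiveRoot ζ p
  /-- the Kummer function -/
  f0 : F
  /-- `f0` is normalised (leading `q`-coefficient one) and `p ∣ ord_q f0` -/
  adm : RootAdmissible p (f0 : LaurentSeries L)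
  /-- `f0` is not a `p`-th power in `F` -/
  not_pow : ∀ g : F, g ^ p ≠ f0

namespace CoverDatum

variable {F : IntermediateField L (LaurentSeries L)} {p : ℕ} (D : CoverDatum F p)

/-- The normalised `p`-th root of `f0`. -/
def z : LaurentSeries L := nrt p (D.f0 : LaurentSeries L)

theorem z_pow : D.z ^ p = algebraMap F (LaurentSeries L) D.f0 :=
  nrt_pow p D.prime.ne_zero D.ne_zero D.adm

theorem normalized_z : Normalized D.z := normalized_nrt p _

theorem z_ne_zero : D.z ≠ 0 := D.normalized_z.ne_zero

/-- The cover field `F(z) ⊆ L((q))`. -/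
def coverField : IntermediateField F (LaurentSeries L) := F⟮D.z⟯

/-- The generator `z` as an element of the cover field. -/
def gen : D.coverField := AdjoinSimple.gen F D.z

@[simp] theorem coe_gen : (D.gen : LaurentSeries L) = D.z := rfl

/-- `ζ` as an element of `F`. -/
def ζF : F := algebraMap L F D.ζ

theorem hζF : IsPrimitiveRoot D.ζF p :=
  D.hζ.map_of_injective (algebraMap L F).injective

theorem gen_pow : D.gen ^ p = algebraMap F D.coverField D.f0 := gen_pow_eq D.z_pow

instance : Algebra L D.coverField := inferInstance

instance : IsScalarTower L F D.coverField := inferInstance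

theorem coe_algebraMap_L' (c : L) :
    ((algebraMap L D.coverField c : D.coverField) : LaurentSeries L) =
      algebraMap L (LaurentSeries L) c := rfl

theorem coe_algebraMap_L (c : L) :
    ((algebraMap L D.coverField c : D.coverField) : LaurentSeries L) = HahnSeries.C c := by
  rw [coe_algebraMap_L', LaurentSeries.algebraMap_apply]

instance : IsScalarTower L D.coverField (LaurentSeries L) :=
  ⟨fun c x y => by
    show ((c • x : D.coverField) : LaurentSeries L) * y = c • ((x : LaurentSeries L) * y)
    rw [Algebra.smul_def, MulMemClass.coe_mul, mul_assoc, ← HahnSeries.C_mul_eq_smul,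
      coe_algebraMap_L]⟩

theorem coe_algebraMap_F (x : F) :
    ((algebraMap F D.coverField x : D.coverField) : LaurentSeries L) = (x : LaurentSeries L) :=
  rfl

theorem finrank_coverField : Module.finrank F D.coverField = p :=
  finrank_adjoin D.prime D.hζF D.not_pow D.z_pow

instance : FiniteDimensional F D.coverField := finiteDimensional_adjoin D.prime D.z_pow

instance : IsGalois F D.coverField := isGalois_adjoin D.prime D.hζF D.not_pow D.z_pow

/-- The deck transformation `σ : z ↦ ζ z`. -/
def sigma : D.coverField ≃ₐ[F] D.coverField := kummerSigma D.prime D.hζF D.not_pow D.z_pow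

theorem sigma_gen : D.sigma D.gen = algebraMap L D.coverField D.ζ * D.gen := by
  have := kummerSigma_gen D.prime D.hζF D.not_pow D.z_pow
  rw [Algebra.smul_def] at this
  exact this

theorem coe_sigma_gen : ((D.sigma D.gen : D.coverField) : LaurentSeries L) =
    HahnSeries.C D.ζ * D.z := by
  rw [sigma_gen, MulMemClass.coe_mul, coe_algebraMap_L, coe_gen]

theorem orderOf_sigma : orderOf D.sigma = p :=
  orderOf_kummerSigma D.prime D.hζF D.not_pow D.z_pow

theorem exists_sigma_pow_eq (τ : D.coverField ≃ₐ[F] D.coverField) :
    ∃ k : ℕ, k < p ∧ τ = D.sigma ^ k :=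
  exists_pow_eq D.prime D.hζF D.not_pow D.z_pow τ

theorem mem_range_of_sigma_eq {x : D.coverField} (hx : D.sigma x = x) :
    x ∈ Set.range (algebraMap F D.coverField) :=
  mem_range_of_kummerSigma_eq D.prime D.hζF D.not_pow D.z_pow hx

end CoverDatum

end Fermat.Agent.S40x.R2.Cover
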